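/-
P-CFT work package Global/SecondIneq (task 205), instance of the abstract idele model, file 1:
the local fields `Kv F v` indexed by the primes of `𝓞 F`, the embeddings of `Fˣ`, the local units,
and the transport between the indexings by `v` and by `(q, w)`, `w : PrimesOver F q`.
-/
import Mathlib
import Fermat.Agent.Lib.CFT.Global.Places.LocAlgDecomp
import Fermat.Agent.Lib.CFT.Global.SecondIneq.Model

set_option autoImplicit false

open scoped TensorProduct NumberField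

noncomputable section

namespace Fermat.Agent.Lib.CFT.Global.SecondIneq.Instance

open NumberField IsDedekindDomain Fermat.Agent.Lib.CFT.Global Fermat.Agent.Lib.CFT.Global.Places

variable (F : Type) [Field F] [NumberField F]

instance finiteQuot (v : HeightOneSpectrum (𝓞 F)) : Finite (𝓞 F ⧸ v.asIdeal) :=
  Ideal.finiteQuotientOfFreeOfNeBot _ v.ne_bot

instance fieldQuot (v : HeightOneSpectrum (𝓞 F)) : Field (𝓞 F ⧸ v.asIdeal) :=
  Ideal.Quotient.field _

/-- The rational prime below the prime `v` of `𝓞 F`. -/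
def qOf (v : HeightOneSpectrum (𝓞 F)) : Nat.Primes :=
  ⟨ringChar (𝓞 F ⧸ v.asIdeal), CharP.char_is_prime (𝓞 F ⧸ v.asIdeal) _⟩

theorem mem_qOf (v : HeightOneSpectrum (𝓞 F)) : ((pv (qOf F v) : ℕ) : 𝓞 F) ∈ v.asIdeal := by
  rw [← Ideal.Quotient.eq_zero_iff_mem, map_natCast]
  exact CharP.cast_eq_zero (𝓞 F ⧸ v.asIdeal) (ringChar (𝓞 F ⧸ v.asIdeal))

theorem qOf_eq (v : HeightOneSpectrum (𝓞 F)) (q : Nat.Primes)
    (h : ((pv q : ℕ) : 𝓞 F) ∈ v.asIdeal) : qOf F v = q := by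
  rw [← Ideal.Quotient.eq_zero_iff_mem, map_natCast] at h
  have hdvd : ringChar (𝓞 F ⧸ v.asIdeal) ∣ pv q :=
    (CharP.cast_eq_zero_iff (𝓞 F ⧸ v.asIdeal) (ringChar (𝓞 F ⧸ v.asIdeal)) (pv q)).1 h
  apply Subtype.ext
  exact (Nat.prime_dvd_prime_iff_eq (qOf F v).2 q.2).1 hdvd

/-- `v` as a prime over `qOf v`. -/
def vOver (v : HeightOneSpectrum (𝓞 F)) : PrimesOver F (qOf F v) := ⟨v, mem_qOf F v⟩

@[simp] theorem vOver_val (v : HeightOneSpectrum (𝓞 F)) : (vOver F v).1 = v := rfl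

theorem qOf_val (q : Nat.Primes) (w : PrimesOver F q) : qOf F w.1 = q := qOf_eq F w.1 q w.2

/-- The completion of `F` at `v`. -/
abbrev Kv (v : HeightOneSpectrum (𝓞 F)) : Type := localField F (qOf F v) (vOver F v)

/-- The valuation ring of `Kv F v`. -/
abbrev Ov (v : HeightOneSpectrum (𝓞 F)) : Type := localInt F (qOf F v) (vOver F v)

/-- The multiplicative group of the completion of `F` at `v`. -/
abbrev Fv (v : HeightOneSpectrum (𝓞 F)) : Type := (Kv F v)ˣ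

/-- The component at `w` of a unit of `ℚ_q ⊗ F`. -/
def compAt (q : Nat.Primes) (w : PrimesOver F q) : (LocAlg F q)ˣ →* (localField F q w)ˣ :=
  Units.map ((Ideal.Quotient.mk (maxIdeal F q w) : LocAlg F q →+* localField F q w) :
    LocAlg F q →* localField F q w)

@[simp] theorem val_compAt (q : Nat.Primes) (w : PrimesOver F q) (u : (LocAlg F q)ˣ) :
    ((compAt F q w u : (localField F q w)ˣ) : localField F q w) =
      Ideal.Quotient.mk (maxIdeal F q w) (u : LocAlg F q) := rfl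

/-- The embedding `F → Kv F v`. -/
def toKv (v : HeightOneSpectrum (𝓞 F)) : F →+* Kv F v :=
  (Ideal.Quotient.mk (maxIdeal F (qOf F v) (vOver F v))).comp
    ((Algebra.TensorProduct.includeRight : F →ₐ[ℚ] LocAlg F (qOf F v)) : F →+* LocAlg F (qOf F v))

theorem toKv_apply (v : HeightOneSpectrum (𝓞 F)) (x : F) :
    toKv F v x = Ideal.Quotient.mk _ ((1 : ℚ_[pv (qOf F v)]) ⊗ₜ[ℚ] x) := rfl

/-- The embedding of the global field. -/
def emb (v : HeightOneSpectrum (𝓞 F)) : Fˣ →* Fv F v :=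
  (compAt F (qOf F v) (vOver F v)).comp (locUnit F (qOf F v))

@[simp] theorem val_emb (v : HeightOneSpectrum (𝓞 F)) (x : Fˣ) :
    ((emb F v x : Fv F v) : Kv F v) = toKv F v (x : F) := rfl

/-- The local units. -/
def Uv (v : HeightOneSpectrum (𝓞 F)) : Subgroup (Fv F v) :=
  (Units.map ((algebraMap (Ov F v) (Kv F v) : Ov F v →+* Kv F v) : Ov F v →* Kv F v)).range

theorem mem_Uv_iff (v : HeightOneSpectrum (𝓞 F)) (x : Fv F v) :
    x ∈ Uv F v ↔ ∃ a : (Ov F v)ˣ, algebraMap (Ov F v) (Kv F v) a = (x : Kv F v) := by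
  constructor
  · rintro ⟨a, rfl⟩
    exact ⟨a, rfl⟩
  · rintro ⟨a, ha⟩
    exact ⟨a, Units.ext ha⟩

/-! ### Transport between the two indexings -/

/-- The local field at `v` does not depend on the name of the rational prime below `v`. -/
def castEquiv (v : HeightOneSpectrum (𝓞 F)) {q₁ q₂ : Nat.Primes} (h : q₁ = q₂)
    (h₁ : ((pv q₁ : ℕ) : 𝓞 F) ∈ v.asIdeal) (h₂ : ((pv q₂ : ℕ) : 𝓞 F) ∈ v.asIdeal) :
    localField F q₁ ⟨v, h₁⟩ ≃+* localField F q₂ ⟨v, h₂⟩ := by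
  subst h
  exact RingEquiv.refl _

theorem castEquiv_mk (v : HeightOneSpectrum (𝓞 F)) {q₁ q₂ : Nat.Primes} (h : q₁ = q₂)
    (h₁ : ((pv q₁ : ℕ) : 𝓞 F) ∈ v.asIdeal) (h₂ : ((pv q₂ : ℕ) : 𝓞 F) ∈ v.asIdeal)
    (a : ∀ q : Nat.Primes, LocAlg F q) :
    castEquiv F v h h₁ h₂ (Ideal.Quotient.mk _ (a q₁)) = Ideal.Quotient.mk _ (a q₂) := by
  subst h
  rfl

/-- Integrality is preserved by the transport. -/
theorem castEquiv_mem_range (v : HeightOneSpectrum (𝓞 F)) {q₁ q₂ : Nat.Primes} (h : q₁ = q₂)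
    (h₁ : ((pv q₁ : ℕ) : 𝓞 F) ∈ v.asIdeal) (h₂ : ((pv q₂ : ℕ) : 𝓞 F) ∈ v.asIdeal)
    (x : localField F q₁ ⟨v, h₁⟩) :
    castEquiv F v h h₁ h₂ x ∈ (algebraMap (localInt F q₂ ⟨v, h₂⟩) (localField F q₂ ⟨v, h₂⟩)).range ↔
      x ∈ (algebraMap (localInt F q₁ ⟨v, h₁⟩) (localField F q₁ ⟨v, h₁⟩)).range := by
  subst h
  rfl

/-- From the field indexed by `(q, w)` to the field indexed by `w.1`. -/
def toKvEquiv (q : Nat.Primes) (w : PrimesOver F q) : localField F q w ≃+* Kv F w.1 :=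
  castEquiv F w.1 (qOf_val F q w).symm w.2 (mem_qOf F w.1)

theorem toKvEquiv_mk (q : Nat.Primes) (w : PrimesOver F q) (a : ∀ q : Nat.Primes, LocAlg F q) :
    toKvEquiv F q w (Ideal.Quotient.mk _ (a q)) = Ideal.Quotient.mk _ (a (qOf F w.1)) :=
  castEquiv_mk F w.1 _ _ _ a

theorem toKvEquiv_one_tmul (q : Nat.Primes) (w : PrimesOver F q) (x : F) :
    toKvEquiv F q w (Ideal.Quotient.mk _ ((1 : ℚ_[pv q]) ⊗ₜ[ℚ] x)) = toKv F w.1 x :=
  toKvEquiv_mk F q w (fun q => (1 : ℚ_[pv q]) ⊗ₜ[ℚ] x)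

theorem toKvEquiv_mem_range (q : Nat.Primes) (w : PrimesOver F q) (x : localField F q w) :
    toKvEquiv F q w x ∈ (algebraMap (Ov F w.1) (Kv F w.1)).range ↔
      x ∈ (algebraMap (localInt F q w) (localField F q w)).range :=
  castEquiv_mem_range F w.1 _ _ _ x

end Fermat.Agent.Lib.CFT.Global.SecondIneq.Instance
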