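/-
helper40.  P-CFT work package Global/SecondIneq, instance of the abstract idele model, sub-file
(I-Approx): weak approximation modulo `p`-th powers in the form indexed by the primes of `𝓞 F`
(`weak_approx`), from `WeakApprox`, `LocalPowers` (openness of the `p`-th powers in `ℚ_q ⊗ F`) and
`PlacesInfinite` (totally positive units of `ℝ ⊗ F` are `p`-th powers).
-/
import Mathlib
import Fermat.Agent.Lib.CFT.Global.SecondIneq.Instance.Defs
import Fermat.Agent.Lib.CFT.Global.Places.LocAlgUnits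
import Fermat.Agent.Lib.CFT.Global.PlacesInfinite
import Fermat.Agent.Lib.CFT.Global.LocalPowers

set_option autoImplicit false

open scoped TensorProduct NumberField

noncomputable section

namespace Fermat.Agent.Lib.CFT.Global.SecondIneq.Instance

open NumberField IsDedekindDomain Fermat.Agent.Lib.CFT.Global Fermat.Agent.Lib.CFT.Global.Places

variable (F : Type) [Field F] [NumberField F]

theorem approx_castEquiv_self (v : HeightOneSpectrum (𝓞 F)) {q : Nat.Primes} (h : q = q)
    (h₁ h₂ : ((pv q : ℕ) : 𝓞 F) ∈ v.asIdeal) (t : localField F q ⟨v, h₁⟩) :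
    castEquiv F v h h₁ h₂ t = t := rfl

theorem approx_toKvEquiv_vOver (v : HeightOneSpectrum (𝓞 F)) (t : Kv F v) :
    toKvEquiv F (qOf F v) (vOver F v) t = t :=
  approx_castEquiv_self F v _ _ _ t

theorem approx_compAt_eq (q : Nat.Primes) (w : PrimesOver F q) (u : (LocAlg F q)ˣ) :
    compAt F q w u = locAlgUnitsEquivPi F q u w := Units.ext rfl

/-- Units of `ℚ_q ⊗ F` with prescribed components: the component at `vOver v` of the `qOf v`-th
member of the family is `x v`. -/
lemma exists_family_compAt (x : ∀ v : HeightOneSpectrum (𝓞 F), Fv F v) :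
    ∃ u : ∀ q : Nat.Primes, (LocAlg F q)ˣ,
      ∀ v, compAt F (qOf F v) (vOver F v) (u (qOf F v)) = x v := by
  classical
  refine ⟨fun q => (locAlgUnitsEquivPi F q).symm fun w =>
    Units.mapEquiv (toKvEquiv F q w).symm.toMulEquiv (x w.1), fun v => ?_⟩
  rw [approx_compAt_eq, MulEquiv.apply_symm_apply]
  apply Units.ext
  change (toKvEquiv F (qOf F v) (vOver F v)).symm (x v : Kv F v) = (x v : Kv F v)
  have := approx_toKvEquiv_vOver F v (x v : Kv F v)
  exact (RingEquiv.symm_apply_eq _).2 this.symm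

/-- A totally positive unit of `ℝ ⊗ F` is a `p`-th power. -/
theorem exists_pow_eq_of_pos (a : (ArchAlg F)ˣ)
    (h : ∀ ψ : ArchAlg F →ₐ[ℝ] ℝ, 0 < ψ (a : ArchAlg F)) (p : ℕ) (hp : p ≠ 0) :
    ∃ w : (ArchAlg F)ˣ, w ^ p = a := by
  classical
  set e := PlacesInfinite.archEquivMixed F with he
  set a' : mixedEmbedding.mixedSpace F := e (a : ArchAlg F) with ha'
  have hpos : ∀ w, 0 < a'.1 w := by
    intro w
    have := h (((Pi.evalAlgHom ℝ (fun _ : {w : InfinitePlace F // w.IsReal} => ℝ) w).comp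
      (AlgHom.fst ℝ _ _)).comp e.toAlgHom)
    exact this
  have hroot : ∀ w, ∃ z : ℂ, z ^ p = a'.2 w := fun w =>
    IsAlgClosed.exists_pow_nat_eq _ (Nat.pos_of_ne_zero hp)
  choose c hc using hroot
  set w' : mixedEmbedding.mixedSpace F := (fun w => (a'.1 w) ^ ((p : ℝ)⁻¹), c) with hw'
  have hw'p : w' ^ p = a' := by
    refine Prod.ext ?_ ?_
    · funext w
      change ((a'.1 w) ^ ((p : ℝ)⁻¹)) ^ p = a'.1 w
      exact Real.rpow_inv_natCast_pow (hpos w).le hp
    · funext w
      exact hc w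
  set w₀ : ArchAlg F := e.symm w' with hw₀
  have hw₀p : w₀ ^ p = (a : ArchAlg F) := by
    rw [hw₀, ← map_pow, hw'p, ha', AlgEquiv.symm_apply_apply]
  have hunit : IsUnit w₀ := by
    have : IsUnit (w₀ ^ p) := hw₀p ▸ a.isUnit
    exact (isUnit_pow_iff hp).1 this
  obtain ⟨w, hw⟩ := hunit
  refine ⟨w, Units.ext ?_⟩
  rw [Units.val_pow_eq_pow_val, hw]
  exact hw₀p


/-- **Weak approximation modulo `p`-th powers**, in the form indexed by the primes of `𝓞 F`. -/
theorem weak_approx (p : ℕ) (hp : p ≠ 0) (T : Finset (HeightOneSpectrum (𝓞 F)))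
    (x : ∀ v : HeightOneSpectrum (𝓞 F), Fv F v) (xinf : (ArchAlg F)ˣ) :
    ∃ y : Fˣ, (∀ v ∈ T, ∃ z : Fv F v, z ^ p = x v / emb F v y) ∧
      ∃ z : (ArchAlg F)ˣ, z ^ p = xinf / archUnit F y := by
  classical
  obtain ⟨u, hu⟩ := exists_family_compAt F x
  set Q : Finset Nat.Primes := T.image (qOf F) with hQ
  have hfin : ((fun q => if q ∈ Q then u q else 1, xinf) : IdeleProd F) ∈ ideleSubgroup F := by
    rw [mem_ideleSubgroup]
    refine Q.finite_toSet.subset ?_
    intro q hq
    by_contra hqQ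
    apply hq
    have hqQ' : q ∉ Q := hqQ
    simp only [if_neg hqQ']
    exact one_mem _
  set b : Idele F := ⟨_, hfin⟩ with hb
  obtain ⟨y, hy, -, hpos⟩ := LocalPowers.exists_principal_approx_pow F b Q p hp
  refine ⟨y, ?_, ?_⟩
  · intro v hv
    have hqQ : qOf F v ∈ Q := Finset.mem_image_of_mem _ hv
    obtain ⟨w, -, hwp⟩ := hy (qOf F v) hqQ
    have hcomp : (((principal F y)⁻¹ * b : Idele F) : IdeleProd F).1 (qOf F v) =
        (locUnit F (qOf F v) y)⁻¹ * u (qOf F v) := by
      change (locUnit F (qOf F v) y)⁻¹ * (if qOf F v ∈ Q then u (qOf F v) else 1) = _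
      rw [if_pos hqQ]
    rw [hcomp] at hwp
    refine ⟨compAt F (qOf F v) (vOver F v) w, ?_⟩
    rw [← map_pow, hwp, map_mul, map_inv, hu v, div_eq_mul_inv, mul_comm]
    rfl
  · have harch : ((((principal F y)⁻¹ * b : Idele F) : IdeleProd F).2 : (ArchAlg F)ˣ) =
        (archUnit F y)⁻¹ * xinf := rfl
    obtain ⟨z, hz⟩ := exists_pow_eq_of_pos F _ hpos p hp
    refine ⟨z, ?_⟩
    rw [hz, harch, div_eq_mul_inv, mul_comm]

end Fermat.Agent.Lib.CFT.Global.SecondIneq.Instance
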