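/-
P-CFT work package Global/SecondIneq (task 205), instance of the abstract idele model, file 2:
the dictionary between the ideles of `Ideles.lean` (restricted product over the rational primes
`q` of the unit groups of `ℚ_q ⊗ F`) and the restricted product over the primes `v` of `𝓞 F` of
the groups `Fv F v`.
-/
import Mathlib
import Fermat.Agent.Lib.CFT.Global.SecondIneq.Instance.Defs

set_option autoImplicit false

open scoped TensorProduct NumberField

noncomputable section

namespace Fermat.Agent.Lib.CFT.Global.SecondIneq.Instance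

open NumberField IsDedekindDomain Fermat.Agent.Lib.CFT.Global Fermat.Agent.Lib.CFT.Global.Places

variable (F : Type) [Field F] [NumberField F]

/-! ### Transport, on units -/

theorem castEquiv_self (v : HeightOneSpectrum (𝓞 F)) {q : Nat.Primes} (h : q = q)
    (h₁ h₂ : ((pv q : ℕ) : 𝓞 F) ∈ v.asIdeal) (x : localField F q ⟨v, h₁⟩) :
    castEquiv F v h h₁ h₂ x = x := rfl

theorem castEquiv_isIntUnit (v : HeightOneSpectrum (𝓞 F)) {q₁ q₂ : Nat.Primes} (h : q₁ = q₂)
    (h₁ : ((pv q₁ : ℕ) : 𝓞 F) ∈ v.asIdeal) (h₂ : ((pv q₂ : ℕ) : 𝓞 F) ∈ v.asIdeal)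
    (x : localField F q₁ ⟨v, h₁⟩) :
    (∃ a : (localInt F q₂ ⟨v, h₂⟩)ˣ,
        algebraMap (localInt F q₂ ⟨v, h₂⟩) (localField F q₂ ⟨v, h₂⟩) a = castEquiv F v h h₁ h₂ x) ↔
      ∃ a : (localInt F q₁ ⟨v, h₁⟩)ˣ,
        algebraMap (localInt F q₁ ⟨v, h₁⟩) (localField F q₁ ⟨v, h₁⟩) a = x := by
  subst h
  rfl

/-- From the unit group indexed by `(q, w)` to the one indexed by `w.1`. -/
def toFvEquiv (q : Nat.Primes) (w : PrimesOver F q) : (localField F q w)ˣ ≃* Fv F w.1 :=
  Units.mapEquiv (toKvEquiv F q w).toMulEquiv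

@[simp] theorem val_toFvEquiv (q : Nat.Primes) (w : PrimesOver F q) (u : (localField F q w)ˣ) :
    ((toFvEquiv F q w u : Fv F w.1) : Kv F w.1) = toKvEquiv F q w (u : localField F q w) := rfl

theorem toFvEquiv_compAt (q : Nat.Primes) (w : PrimesOver F q)
    (a : ∀ q : Nat.Primes, (LocAlg F q)ˣ) :
    toFvEquiv F q w (compAt F q w (a q)) =
      compAt F (qOf F w.1) (vOver F w.1) (a (qOf F w.1)) := by
  apply Units.ext
  rw [val_toFvEquiv, val_compAt, val_compAt]
  exact toKvEquiv_mk F q w (fun q => ((a q : (LocAlg F q)ˣ) : LocAlg F q))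

theorem toFvEquiv_vOver (v : HeightOneSpectrum (𝓞 F)) (u : Fv F v) :
    toFvEquiv F (qOf F v) (vOver F v) u = u := by
  apply Units.ext
  rfl

theorem toFvEquiv_mem_Uv_iff (q : Nat.Primes) (w : PrimesOver F q) (u : (localField F q w)ˣ) :
    toFvEquiv F q w u ∈ Uv F w.1 ↔ ∃ a : (localInt F q w)ˣ,
      algebraMap (localInt F q w) (localField F q w) a = (u : localField F q w) := by
  rw [mem_Uv_iff, val_toFvEquiv]
  exact castEquiv_isIntUnit F w.1 _ _ _ _

/-! ### The components of a unit of `ℚ_q ⊗ F` -/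

/-- A unit of `ℚ_q ⊗ F` is a family of units of the local fields at the primes above `q`. -/
def compEquiv (q : Nat.Primes) : (LocAlg F q)ˣ ≃* ∀ w : PrimesOver F q, (localField F q w)ˣ :=
  (Units.mapEquiv (locAlgEquivPi F q).toMulEquiv).trans MulEquiv.piUnits

@[simp] theorem compEquiv_apply (q : Nat.Primes) (u : (LocAlg F q)ˣ) (w : PrimesOver F q) :
    compEquiv F q u w = compAt F q w u := by
  apply Units.ext
  rfl

theorem compAt_compEquiv_symm (q : Nat.Primes) (y : ∀ w : PrimesOver F q, (localField F q w)ˣ)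
    (w : PrimesOver F q) : compAt F q w ((compEquiv F q).symm y) = y w := by
  rw [← compEquiv_apply, MulEquiv.apply_symm_apply]

theorem mem_locIntUnits_iff_compAt (q : Nat.Primes) (u : (LocAlg F q)ˣ) :
    u ∈ locIntUnits F q ↔ ∀ w : PrimesOver F q, toFvEquiv F q w (compAt F q w u) ∈ Uv F w.1 := by
  rw [mem_locIntUnits_iff_forall]
  refine forall_congr' fun w => ?_
  rw [toFvEquiv_mem_Uv_iff, val_compAt]

/-! ### The two unrestricted products -/

/-- The unrestricted product over the primes of `𝓞 F`. -/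
abbrev ProdV : Type := (∀ v : HeightOneSpectrum (𝓞 F), Fv F v) × (ArchAlg F)ˣ

/-- From the product over the rational primes to the product over the primes of `𝓞 F`. -/
def toProdV : IdeleProd F →* ProdV F where
  toFun x := (fun v => compAt F (qOf F v) (vOver F v) (x.1 (qOf F v)), x.2)
  map_one' := by
    ext : 1
    · funext v
      exact map_one _
    · rfl
  map_mul' x y := by
    ext : 1
    · funext v
      exact map_mul _ _ _
    · rfl

@[simp] theorem toProdV_fst (x : IdeleProd F) (v : HeightOneSpectrum (𝓞 F)) :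
    (toProdV F x).1 v = compAt F (qOf F v) (vOver F v) (x.1 (qOf F v)) := rfl

@[simp] theorem toProdV_snd (x : IdeleProd F) : (toProdV F x).2 = x.2 := rfl

/-- From the product over the primes of `𝓞 F` to the product over the rational primes. -/
def ofProdV (y : ProdV F) : IdeleProd F :=
  (fun q => (compEquiv F q).symm (fun w => (toFvEquiv F q w).symm (y.1 w.1)), y.2)

@[simp] theorem ofProdV_snd (y : ProdV F) : (ofProdV F y).2 = y.2 := rfl

theorem compAt_ofProdV (y : ProdV F) (q : Nat.Primes) (w : PrimesOver F q) :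
    toFvEquiv F q w (compAt F q w ((ofProdV F y).1 q)) = y.1 w.1 := by
  change toFvEquiv F q w (compAt F q w ((compEquiv F q).symm _)) = _
  rw [compAt_compEquiv_symm, MulEquiv.apply_symm_apply]

theorem toProdV_ofProdV (y : ProdV F) : toProdV F (ofProdV F y) = y := by
  ext : 1
  · funext v
    rw [toProdV_fst, ← toFvEquiv_vOver F v (compAt F (qOf F v) (vOver F v) _)]
    exact compAt_ofProdV F y (qOf F v) (vOver F v)
  · rfl

theorem ofProdV_toProdV (x : IdeleProd F) : ofProdV F (toProdV F x) = x := by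
  ext : 1
  · funext q
    apply (compEquiv F q).injective
    funext w
    rw [compEquiv_apply]
    apply (toFvEquiv F q w).injective
    rw [compAt_ofProdV, toProdV_fst]
    exact (toFvEquiv_compAt F q w x.1).symm
  · rfl

/-- The equivalence of the two unrestricted products. -/
def prodEquiv : IdeleProd F ≃* ProdV F :=
  { toProdV F with
    invFun := ofProdV F
    left_inv := ofProdV_toProdV F
    right_inv := toProdV_ofProdV F }

@[simp] theorem prodEquiv_apply (x : IdeleProd F) : prodEquiv F x = toProdV F x := rfl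

@[simp] theorem prodEquiv_symm_apply (y : ProdV F) : (prodEquiv F).symm y = ofProdV F y := rfl

/-! ### The restricted products -/

/-- The restricted product over the primes of `𝓞 F` (the ideles of the model). -/
def Jv : Subgroup (ProdV F) where
  carrier := {x | {v | x.1 v ∉ Uv F v}.Finite}
  mul_mem' := by
    intro a b ha hb
    refine (ha.union hb).subset ?_
    intro v hv
    by_contra h
    simp only [Set.mem_union, Set.mem_ofPred_eq, not_or, not_not] at h
    exact hv (mul_mem h.1 h.2)
  one_mem' := by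
    have : {v | (1 : ProdV F).1 v ∉ Uv F v} = ∅ := by
      ext v; simp [one_mem]
    change {v | (1 : ProdV F).1 v ∉ Uv F v}.Finite
    rw [this]
    exact Set.finite_empty
  inv_mem' := by
    intro a ha
    refine ha.subset ?_
    intro v hv h
    exact hv (by simpa using inv_mem h)

theorem mem_Jv (x : ProdV F) : x ∈ Jv F ↔ {v | x.1 v ∉ Uv F v}.Finite := Iff.rfl

theorem finite_setOf_qOf_eq (q : Nat.Primes) : {v : HeightOneSpectrum (𝓞 F) | qOf F v = q}.Finite := by
  have : {v : HeightOneSpectrum (𝓞 F) | qOf F v = q} ⊆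
      Set.range (fun w : PrimesOver F q => w.1) := by
    intro v hv
    have hv' : qOf F v = q := hv
    exact ⟨⟨v, hv' ▸ mem_qOf F v⟩, rfl⟩
  exact (Set.finite_range _).subset this

theorem toProdV_mem_Jv {x : IdeleProd F} (hx : x ∈ ideleSubgroup F) : toProdV F x ∈ Jv F := by
  rw [mem_Jv]
  rw [mem_ideleSubgroup] at hx
  have hfin : (⋃ q ∈ {q : Nat.Primes | x.1 q ∉ locIntUnits F q},
      {v : HeightOneSpectrum (𝓞 F) | qOf F v = q}).Finite :=
    hx.biUnion fun q _ => finite_setOf_qOf_eq F q
  refine hfin.subset ?_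
  intro v hv
  simp only [Set.mem_iUnion, Set.mem_ofPred_eq, exists_prop, exists_eq_right']
  intro hq
  apply hv
  have := (mem_locIntUnits_iff_compAt F (qOf F v) (x.1 (qOf F v))).1 hq (vOver F v)
  rwa [toFvEquiv_vOver] at this

theorem ofProdV_mem_ideleSubgroup {y : ProdV F} (hy : y ∈ Jv F) :
    ofProdV F y ∈ ideleSubgroup F := by
  rw [mem_ideleSubgroup]
  rw [mem_Jv] at hy
  refine (hy.image (qOf F)).subset ?_
  intro q hq
  have hq' : ¬ ∀ w : PrimesOver F q,
      toFvEquiv F q w (compAt F q w ((ofProdV F y).1 q)) ∈ Uv F w.1 := by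
    rwa [← mem_locIntUnits_iff_compAt]
  push Not at hq'
  obtain ⟨w, hw⟩ := hq'
  rw [compAt_ofProdV] at hw
  exact ⟨w.1, hw, qOf_val F q w⟩

/-- **The dictionary**: the ideles of `Ideles.lean` are the restricted product over the primes
of `𝓞 F`. -/
def ideleEquiv : Idele F ≃* ↥(Jv F) where
  toFun x := ⟨toProdV F x, toProdV_mem_Jv F x.2⟩
  invFun y := ⟨ofProdV F y, ofProdV_mem_ideleSubgroup F y.2⟩
  left_inv x := Subtype.ext (ofProdV_toProdV F x)
  right_inv y := Subtype.ext (toProdV_ofProdV F y)
  map_mul' x y := Subtype.ext (map_mul (toProdV F) (x : IdeleProd F) (y : IdeleProd F))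

@[simp] theorem ideleEquiv_fst (x : Idele F) (v : HeightOneSpectrum (𝓞 F)) :
    ((ideleEquiv F x : ↥(Jv F)) : ProdV F).1 v =
      compAt F (qOf F v) (vOver F v) ((x : IdeleProd F).1 (qOf F v)) := rfl

@[simp] theorem ideleEquiv_snd (x : Idele F) :
    ((ideleEquiv F x : ↥(Jv F)) : ProdV F).2 = (x : IdeleProd F).2 := rfl

theorem ideleEquiv_principal_fst (x : Fˣ) (v : HeightOneSpectrum (𝓞 F)) :
    ((ideleEquiv F (principal F x) : ↥(Jv F)) : ProdV F).1 v = emb F v x := rfl

theorem ideleEquiv_principal_snd (x : Fˣ) :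
    ((ideleEquiv F (principal F x) : ↥(Jv F)) : ProdV F).2 = archUnit F x := rfl

/-- The components of `ideleEquiv.symm`. -/
theorem compAt_ideleEquiv_symm (y : ↥(Jv F)) (q : Nat.Primes) (w : PrimesOver F q) :
    toFvEquiv F q w (compAt F q w ((((ideleEquiv F).symm y : Idele F) : IdeleProd F).1 q)) =
      (y : ProdV F).1 w.1 :=
  compAt_ofProdV F y q w

end Fermat.Agent.Lib.CFT.Global.SecondIneq.Instance
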