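import Mathlib

/-!
# Reindexing a restricted product along a sigma decomposition (P-CFT, SecondIneq/Instance, (I-2))

Abstract form of the comparison `Idele F ≃* M.J` between the ideles indexed by rational primes
(with semi-local components `(ℚ_q ⊗ F)ˣ ≃ ∏_{v ∣ q} F_vˣ`) and the ideles indexed by the primes of
`𝓞 F`.

* `ι` : rational primes, `κ q` : primes over `q`, `W` : all primes, `ρ w` the rational prime under
  `w`, `π w : κ (ρ w)` the place `w` seen over `ρ w`;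
* `H q ≃* ∀ v, G q v` the semi-local decompositions `φ q`, `V q`, `U q v` the unit subgroups.
-/

set_option autoImplicit false

namespace Fermat.Agent.Lib.CFT.Global.SecondIneq.Instance

section Abstract

variable {ι : Type*} {κ : ι → Type*} {W : Type*} (ρ : W → ι) (π : ∀ w, κ (ρ w))
  {H : ι → Type*} [∀ q, Group (H q)] {G : ∀ q, κ q → Type*} [∀ q v, Group (G q v)]
  (φ : ∀ q, H q ≃* ∀ v, G q v) {A : Type*} [Group A]

/-- The reindexing homomorphism. -/
def reindexHom : ((∀ q, H q) × A) →* ((∀ w, G (ρ w) (π w)) × A) where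
  toFun x := (fun w => φ (ρ w) (x.1 (ρ w)) (π w), x.2)
  map_one' := by
    ext : 1
    · funext w
      simp
    · rfl
  map_mul' x y := by
    ext : 1
    · funext w
      simp
    · rfl

@[simp] lemma reindexHom_fst (x : (∀ q, H q) × A) (w : W) :
    (reindexHom ρ π φ x).1 w = φ (ρ w) (x.1 (ρ w)) (π w) := rfl

@[simp] lemma reindexHom_snd (x : (∀ q, H q) × A) : (reindexHom ρ π φ x).2 = x.2 := rfl

variable {ρ π}

lemma reindexHom_injective
    (hbij : Function.Bijective (fun w => (⟨ρ w, π w⟩ : Σ q, κ q))) :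
    Function.Injective (reindexHom ρ π φ (A := A)) := by
  intro x x' h
  have h1 : ∀ w, φ (ρ w) (x.1 (ρ w)) (π w) = φ (ρ w) (x'.1 (ρ w)) (π w) := fun w =>
    congrFun (congrArg Prod.fst h) w
  have h2 : x.2 = x'.2 := by
    have h3 := congrArg Prod.snd h
    exact h3
  refine Prod.ext ?_ h2
  funext q
  apply (φ q).injective
  funext v
  obtain ⟨w, hw⟩ := hbij.2 ⟨q, v⟩
  obtain ⟨hq, hv⟩ := Sigma.mk.inj_iff.1 hw
  subst hq
  have hv' : π w = v := eq_of_heq hv
  subst hv'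
  exact h1 w

lemma reindexHom_surjective
    (hbij : Function.Bijective (fun w => (⟨ρ w, π w⟩ : Σ q, κ q))) :
    Function.Surjective (reindexHom ρ π φ (A := A)) := by
  intro y
  let e : W ≃ Σ q, κ q := Equiv.ofBijective _ hbij
  -- the family indexed by the sigma type
  let g : ∀ s : Σ q, κ q, G s.1 s.2 := fun s =>
    cast (congrArg (fun s : Σ q, κ q => G s.1 s.2) (e.apply_symm_apply s))
      (y.1 (e.symm s) : G (e (e.symm s)).1 (e (e.symm s)).2)
  have hg : ∀ w, g (e w) = y.1 w := by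
    intro w
    apply eq_of_heq
    have h1 : HEq (g (e w)) (y.1 (e.symm (e w))) := by
      simp only [g]
      exact cast_heq _ _
    have h2 : HEq (y.1 (e.symm (e w))) (y.1 w) := by
      rw [e.symm_apply_apply]
    exact h1.trans h2
  refine ⟨(fun q => (φ q).symm fun v => g ⟨q, v⟩, y.2), ?_⟩
  ext : 1
  · funext w
    simp only [reindexHom_fst, MulEquiv.apply_symm_apply]
    exact hg w
  · rfl

lemma reindexHom_bijective
    (hbij : Function.Bijective (fun w => (⟨ρ w, π w⟩ : Σ q, κ q))) :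
    Function.Bijective (reindexHom ρ π φ (A := A)) :=
  ⟨reindexHom_injective φ hbij, reindexHom_surjective φ hbij⟩

variable (V : ∀ q, Subgroup (H q)) (U : ∀ q v, Subgroup (G q v))

/-- The restricted-product conditions correspond. -/
lemma finite_reindexHom_iff [∀ q, Finite (κ q)]
    (hbij : Function.Bijective (fun w => (⟨ρ w, π w⟩ : Σ q, κ q)))
    (hφ : ∀ q (u : H q), u ∈ V q ↔ ∀ v, φ q u v ∈ U q v) (x : (∀ q, H q) × A) :
    {w | (reindexHom ρ π φ x).1 w ∉ U (ρ w) (π w)}.Finite ↔ {q | x.1 q ∉ V q}.Finite := by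
  constructor
  · intro h
    refine (h.image ρ).subset ?_
    intro q hq
    have hq' : ¬ ∀ v, φ q (x.1 q) v ∈ U q v := fun hh => hq ((hφ q _).2 hh)
    push Not at hq'
    obtain ⟨v, hv⟩ := hq'
    obtain ⟨w, hw⟩ := hbij.2 ⟨q, v⟩
    obtain ⟨hq1, hv1⟩ := Sigma.mk.inj_iff.1 hw
    subst hq1
    have hv' : π w = v := eq_of_heq hv1
    subst hv'
    exact ⟨w, hv, rfl⟩
  · intro h
    have hfib : ∀ q ∈ {q | x.1 q ∉ V q}, (ρ ⁻¹' {q}).Finite := by
      intro q _
      have h1 : (Set.range (Sigma.mk q : κ q → Σ q, κ q)).Finite := Set.finite_range _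
      have h2 := h1.preimage (f := fun w => (⟨ρ w, π w⟩ : Σ q, κ q)) hbij.1.injOn
      refine h2.subset ?_
      intro w hw
      simp only [Set.mem_preimage, Set.mem_singleton_iff] at hw
      subst hw
      exact ⟨π w, rfl⟩
    refine (Set.Finite.preimage' h hfib).subset ?_
    intro w hw
    simp only [Set.mem_preimage, Set.mem_ofPred_eq]
    intro hmem
    exact hw ((hφ _ _).1 hmem (π w))

/-- **Reindexing of restricted products.**  `R₁`, `R₂` the two restricted products. -/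
noncomputable def restrictedEquiv [∀ q, Finite (κ q)]
    (hbij : Function.Bijective (fun w => (⟨ρ w, π w⟩ : Σ q, κ q)))
    (hφ : ∀ q (u : H q), u ∈ V q ↔ ∀ v, φ q u v ∈ U q v)
    (R₁ : Subgroup ((∀ q, H q) × A)) (R₂ : Subgroup ((∀ w, G (ρ w) (π w)) × A))
    (hR₁ : ∀ x, x ∈ R₁ ↔ {q | x.1 q ∉ V q}.Finite)
    (hR₂ : ∀ y, y ∈ R₂ ↔ {w | y.1 w ∉ U (ρ w) (π w)}.Finite) : R₁ ≃* R₂ :=
  MulEquiv.ofBijective
    (((reindexHom ρ π φ).comp R₁.subtype).codRestrict R₂ (fun x =>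
      (hR₂ _).2 ((finite_reindexHom_iff φ V U hbij hφ _).2 ((hR₁ _).1 x.2))))
    (by
      constructor
      · intro x x' h
        apply Subtype.ext
        apply reindexHom_injective φ hbij
        exact congrArg Subtype.val h
      · intro y
        obtain ⟨x, hx⟩ := reindexHom_surjective φ hbij (y : (∀ w, G (ρ w) (π w)) × A)
        refine ⟨⟨x, (hR₁ _).2 ((finite_reindexHom_iff φ V U hbij hφ _).1 ?_)⟩, Subtype.ext hx⟩
        rw [hx]
        exact (hR₂ _).1 y.2)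

@[simp] lemma restrictedEquiv_fst [∀ q, Finite (κ q)]
    (hbij : Function.Bijective (fun w => (⟨ρ w, π w⟩ : Σ q, κ q)))
    (hφ : ∀ q (u : H q), u ∈ V q ↔ ∀ v, φ q u v ∈ U q v)
    (R₁ : Subgroup ((∀ q, H q) × A)) (R₂ : Subgroup ((∀ w, G (ρ w) (π w)) × A))
    (hR₁ : ∀ x, x ∈ R₁ ↔ {q | x.1 q ∉ V q}.Finite)
    (hR₂ : ∀ y, y ∈ R₂ ↔ {w | y.1 w ∉ U (ρ w) (π w)}.Finite) (x : R₁) (w : W) :
    (restrictedEquiv φ V U hbij hφ R₁ R₂ hR₁ hR₂ x : (∀ w, G (ρ w) (π w)) × A).1 w =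
      φ (ρ w) ((x : (∀ q, H q) × A).1 (ρ w)) (π w) := rfl

@[simp] lemma restrictedEquiv_snd [∀ q, Finite (κ q)]
    (hbij : Function.Bijective (fun w => (⟨ρ w, π w⟩ : Σ q, κ q)))
    (hφ : ∀ q (u : H q), u ∈ V q ↔ ∀ v, φ q u v ∈ U q v)
    (R₁ : Subgroup ((∀ q, H q) × A)) (R₂ : Subgroup ((∀ w, G (ρ w) (π w)) × A))
    (hR₁ : ∀ x, x ∈ R₁ ↔ {q | x.1 q ∉ V q}.Finite)
    (hR₂ : ∀ y, y ∈ R₂ ↔ {w | y.1 w ∉ U (ρ w) (π w)}.Finite) (x : R₁) :
    (restrictedEquiv φ V U hbij hφ R₁ R₂ hR₁ hR₂ x : (∀ w, G (ρ w) (π w)) × A).2 =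
      (x : (∀ q, H q) × A).2 := rfl

end Abstract

end Fermat.Agent.Lib.CFT.Global.SecondIneq.Instance
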