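import Mathlib
import Fermat.Agent.Lib.CFT.Global.Places.LocAlgUnits
import Fermat.Agent.Lib.CFT.Global.SecondIneq.Instance.Defs
import Fermat.Agent.Lib.CFT.Global.SecondIneq.Instance.IdeleEquivAbstract

/-!
# `Idele F` is the restricted product over the primes of `𝓞 F` (P-CFT, SecondIneq/Instance, (I-2))

`ideleEquivOf F R₂ hR₂ : Idele F ≃* R₂` for any subgroup `R₂` of `(∀ v, Fv F v) × (ArchAlg F)ˣ`
whose membership is the restricted-product condition with respect to the local units `Uv F v`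
(in particular `R₂ = M.ideleSubgroup` for the local model `M` built on `Defs.lean`), with the
component formulas and the compatibility with the principal ideles.
-/

set_option autoImplicit false

open scoped TensorProduct NumberField

noncomputable section

namespace Fermat.Agent.Lib.CFT.Global.SecondIneq.Instance

open NumberField IsDedekindDomain Fermat.Agent.Lib.CFT.Global Fermat.Agent.Lib.CFT.Global.Places

variable (F : Type) [Field F] [NumberField F]

/-- The primes of `𝓞 F` are the pairs (rational prime `q`, prime over `q`). -/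
theorem bijective_qOf_vOver :
    Function.Bijective (fun v : HeightOneSpectrum (𝓞 F) =>
      (⟨qOf F v, vOver F v⟩ : Σ q : Nat.Primes, PrimesOver F q)) := by
  constructor
  · intro v v' h
    obtain ⟨hq, hv⟩ := Sigma.mk.inj_iff.1 h
    have h1 : ∀ (q q' : Nat.Primes) (w : PrimesOver F q) (w' : PrimesOver F q'), q = q' →
        HEq w w' → w.1 = w'.1 := by
      intro q q' w w' hqq hww
      subst hqq
      rw [eq_of_heq hww]
    exact h1 _ _ _ _ hq hv
  · rintro ⟨q, w⟩
    refine ⟨w.1, ?_⟩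
    have hq : qOf F w.1 = q := qOf_val F q w
    have h1 : ∀ (q' : Nat.Primes) (hq' : q' = q) (w' : PrimesOver F q'), w'.1 = w.1 →
        (⟨q', w'⟩ : Σ q : Nat.Primes, PrimesOver F q) = ⟨q, w⟩ := by
      intro q' hq' w' hw'
      subst hq'
      rw [Subtype.ext hw']
    exact h1 _ hq _ rfl

/-- `compAt` is the component of the semi-local decomposition. -/
theorem compAt_eq (q : Nat.Primes) (w : PrimesOver F q) (u : (LocAlg F q)ˣ) :
    compAt F q w u = locAlgUnitsEquivPi F q u w := Units.ext rfl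

theorem Uv_eq (v : HeightOneSpectrum (𝓞 F)) : Uv F v = localIntUnits F (qOf F v) (vOver F v) := rfl

/-- **(I-2)** The ideles of `F` (indexed by rational primes, semi-local components) are the
restricted product of the `Fv F v` with respect to the `Uv F v`, times the archimedean part. -/
def ideleEquivOf (R₂ : Subgroup ((∀ v : HeightOneSpectrum (𝓞 F), Fv F v) × (ArchAlg F)ˣ))
    (hR₂ : ∀ y, y ∈ R₂ ↔ {v | y.1 v ∉ Uv F v}.Finite) : Idele F ≃* R₂ :=
  restrictedEquiv (ρ := qOf F) (π := vOver F) (H := fun q => (LocAlg F q)ˣ)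
    (G := fun q w => (localField F q w)ˣ) (fun q => locAlgUnitsEquivPi F q)
    (fun q => locIntUnits F q) (fun q w => localIntUnits F q w) (bijective_qOf_vOver F)
    (fun _ u => mem_locIntUnits_iff_forall_mem u) (ideleSubgroup F) R₂
    (mem_ideleSubgroup F) hR₂

variable {F}

@[simp] theorem ideleEquivOf_fst
    (R₂ : Subgroup ((∀ v : HeightOneSpectrum (𝓞 F), Fv F v) × (ArchAlg F)ˣ))
    (hR₂ : ∀ y, y ∈ R₂ ↔ {v | y.1 v ∉ Uv F v}.Finite) (x : Idele F)
    (v : HeightOneSpectrum (𝓞 F)) :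
    (ideleEquivOf F R₂ hR₂ x : (∀ v, Fv F v) × (ArchAlg F)ˣ).1 v =
      locAlgUnitsEquivPi F (qOf F v) ((x : IdeleProd F).1 (qOf F v)) (vOver F v) := rfl

theorem ideleEquivOf_fst_compAt
    (R₂ : Subgroup ((∀ v : HeightOneSpectrum (𝓞 F), Fv F v) × (ArchAlg F)ˣ))
    (hR₂ : ∀ y, y ∈ R₂ ↔ {v | y.1 v ∉ Uv F v}.Finite) (x : Idele F)
    (v : HeightOneSpectrum (𝓞 F)) :
    (ideleEquivOf F R₂ hR₂ x : (∀ v, Fv F v) × (ArchAlg F)ˣ).1 v =
      compAt F (qOf F v) (vOver F v) ((x : IdeleProd F).1 (qOf F v)) :=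
  (compAt_eq F _ _ _).symm

@[simp] theorem ideleEquivOf_snd
    (R₂ : Subgroup ((∀ v : HeightOneSpectrum (𝓞 F), Fv F v) × (ArchAlg F)ˣ))
    (hR₂ : ∀ y, y ∈ R₂ ↔ {v | y.1 v ∉ Uv F v}.Finite) (x : Idele F) :
    (ideleEquivOf F R₂ hR₂ x : (∀ v, Fv F v) × (ArchAlg F)ˣ).2 = (x : IdeleProd F).2 := rfl

/-- Principal ideles go to principal ideles. -/
theorem ideleEquivOf_principal
    (R₂ : Subgroup ((∀ v : HeightOneSpectrum (𝓞 F), Fv F v) × (ArchAlg F)ˣ))
    (hR₂ : ∀ y, y ∈ R₂ ↔ {v | y.1 v ∉ Uv F v}.Finite) (y : Fˣ) :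
    (ideleEquivOf F R₂ hR₂ (principal F y) : (∀ v, Fv F v) × (ArchAlg F)ˣ) =
      (fun v => emb F v y, archUnit F y) := by
  ext : 1
  · funext v
    rw [ideleEquivOf_fst_compAt]
    rfl
  · rfl

/-- Componentwise description of the inverse: an element of the restricted product and an idele
correspond iff all their components agree. -/
theorem ideleEquivOf_symm_apply_eq_iff
    (R₂ : Subgroup ((∀ v : HeightOneSpectrum (𝓞 F), Fv F v) × (ArchAlg F)ˣ))
    (hR₂ : ∀ y, y ∈ R₂ ↔ {v | y.1 v ∉ Uv F v}.Finite) (y : R₂) (x : Idele F) :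
    (ideleEquivOf F R₂ hR₂).symm y = x ↔
      (∀ v, (y : (∀ v, Fv F v) × (ArchAlg F)ˣ).1 v =
        compAt F (qOf F v) (vOver F v) ((x : IdeleProd F).1 (qOf F v))) ∧
      (y : (∀ v, Fv F v) × (ArchAlg F)ˣ).2 = (x : IdeleProd F).2 := by
  rw [MulEquiv.symm_apply_eq]
  constructor
  · rintro rfl
    exact ⟨fun v => ideleEquivOf_fst_compAt R₂ hR₂ x v, rfl⟩
  · rintro ⟨h1, h2⟩
    apply Subtype.ext
    ext : 1
    · funext v
      rw [h1 v, ideleEquivOf_fst_compAt]
    · rw [h2, ideleEquivOf_snd]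

/-- The component at `(q, w)` of an idele, read off from its image in the restricted product
(through the transport `toKvEquiv` of `Defs.lean`). -/
theorem toKvEquiv_compAt
    (R₂ : Subgroup ((∀ v : HeightOneSpectrum (𝓞 F), Fv F v) × (ArchAlg F)ˣ))
    (hR₂ : ∀ y, y ∈ R₂ ↔ {v | y.1 v ∉ Uv F v}.Finite) (x : Idele F) (q : Nat.Primes)
    (w : PrimesOver F q) :
    toKvEquiv F q w ((compAt F q w ((x : IdeleProd F).1 q) : (localField F q w)ˣ) :
        localField F q w) =
      (((ideleEquivOf F R₂ hR₂ x : (∀ v, Fv F v) × (ArchAlg F)ˣ).1 w.1 : Fv F w.1) : Kv F w.1) := by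
  rw [ideleEquivOf_fst_compAt, val_compAt, val_compAt]
  exact toKvEquiv_mk F q w (fun q => (((x : IdeleProd F).1 q : (LocAlg F q)ˣ) : LocAlg F q))

end Fermat.Agent.Lib.CFT.Global.SecondIneq.Instance
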