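import Mathlib
import Fermat.Agent.Lib.CFT.Global.Places.LocAlgUnits
import Fermat.Agent.Lib.CFT.Global.SecondIneq.Model
import Fermat.Agent.Lib.CFT.Global.SecondIneq.Instance.Defs
import Fermat.Agent.Lib.CFT.Global.SecondIneq.Instance.Dict
import Fermat.Agent.Lib.CFT.Global.SecondIneq.Instance.IdeleEquiv

/-!
# The Kummer model on the ideles of a number field: the glue (P-CFT, SecondIneq/Instance)

* `LocalData F p`     : the proof part of a `LocalModel F p` over the literal data of `Defs.lean`
  (`Fv F`, `Uv F`, `emb F`, `(ArchAlg F)ˣ`, `archUnit F`); `LocalData.toLocalModel`.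
* `NormLocalData F p` : global and local norm groups of the Kummer extensions `F(b^{1/p})`, stated
  against `Idele F` and the places `(q, w)`, with the standard local facts and the first inequality.
* `WeakApprox F p`    : weak approximation modulo `p`-th powers, in the `Idele F` form.
* `kummerModelOf D N hWA : KummerModel F p` and the comparison of the indices
  `[J : Fˣ · N_b]` in the model and in `Idele F`.
-/

set_option autoImplicit false

open scoped TensorProduct NumberField

noncomputable section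

namespace Fermat.Agent.Lib.CFT.Global.SecondIneq.Instance

open NumberField IsDedekindDomain Fermat.Agent.Lib.CFT.Global Fermat.Agent.Lib.CFT.Global.Places
  Fermat.Agent.Lib.CFT.Global.SUnits Fermat.Agent.Lib.CFT.Global.SecondIneq

variable (F : Type) [Field F] [NumberField F] (p : ℕ)

/-- The proof part of a `LocalModel F p` over the data of `Defs.lean`. -/
structure LocalData where
  /-- the normalised valuation -/
  ord : ∀ v : HeightOneSpectrum (𝓞 F), Fv F v →* Multiplicative ℤ
  ord_ker : ∀ v, (ord v).ker = Uv F v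
  ord_surjective : ∀ v, Function.Surjective (ord v)
  ord_emb : ∀ v (x : Fˣ), ord v (emb F v x) = Multiplicative.ofAdd (ordAt v x)
  /-- reduction of local units to the residue field -/
  red : ∀ v : HeightOneSpectrum (𝓞 F), Uv F v →* (𝓞 F ⧸ v.asIdeal)ˣ
  red_surjective : ∀ v, Function.Surjective (red v)
  red_ker : ∀ v : HeightOneSpectrum (𝓞 F), (p : 𝓞 F) ∉ v.asIdeal → ∀ u : Uv F v, red v u = 1 →
    ∃ u' : Uv F v, u' ^ p = u
  red_emb : ∀ (v : HeightOneSpectrum (𝓞 F)) (c : 𝓞 F) (x : Fˣ) (u : Uv F v), (x : F) = (c : F) →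
    (u : Fv F v) = emb F v x →
    ((red v u : (𝓞 F ⧸ v.asIdeal)ˣ) : 𝓞 F ⧸ v.asIdeal) = Ideal.Quotient.mk v.asIdeal c
  index_p : ∀ P : Finset (HeightOneSpectrum (𝓞 F)), (∀ v, v ∈ P ↔ (p : 𝓞 F) ∈ v.asIdeal) →
    (∏ v ∈ P, (powSubgroup (Fv F v) p).index) * (powSubgroup (ArchAlg F)ˣ p).index =
      p ^ (2 * P.card + 2 * Fintype.card (InfinitePlace F))

variable {F p}

/-- The local model on the data of `Defs.lean`. -/
def LocalData.toLocalModel (D : LocalData F p) : LocalModel F p where
  Fv := Fv F
  U := Uv F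
  emb := emb F
  ord := D.ord
  ord_ker := D.ord_ker
  ord_surjective := D.ord_surjective
  ord_emb := D.ord_emb
  red := D.red
  red_surjective := D.red_surjective
  red_ker := D.red_ker
  red_emb := D.red_emb
  A := (ArchAlg F)ˣ
  embA := archUnit F
  index_p := D.index_p

/-- The ideles of `F` are the ideles of the model. -/
def LocalData.ideleEquiv (D : LocalData F p) : Idele F ≃* D.toLocalModel.J :=
  Instance.ideleEquiv F

@[simp] lemma LocalData.ideleEquiv_fst (D : LocalData F p) (x : Idele F)
    (v : HeightOneSpectrum (𝓞 F)) :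
    (D.ideleEquiv x : D.toLocalModel.Prod).1 v =
      compAt F (qOf F v) (vOver F v) ((x : IdeleProd F).1 (qOf F v)) := rfl

@[simp] lemma LocalData.ideleEquiv_snd (D : LocalData F p) (x : Idele F) :
    (D.ideleEquiv x : D.toLocalModel.Prod).2 = (x : IdeleProd F).2 := rfl

lemma LocalData.ideleEquiv_principal (D : LocalData F p) (y : Fˣ) :
    D.ideleEquiv (principal F y) = D.toLocalModel.principal y :=
  Subtype.ext rfl

lemma LocalData.ideleEquiv_comp_principal (D : LocalData F p) :
    D.ideleEquiv.toMonoidHom.comp (principal F) = D.toLocalModel.principal :=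
  MonoidHom.ext D.ideleEquiv_principal

lemma LocalData.map_range_principal (D : LocalData F p) :
    (principal F).range.map D.ideleEquiv.toMonoidHom = D.toLocalModel.principal.range := by
  rw [MonoidHom.map_range, D.ideleEquiv_comp_principal]

variable (F p)

/-- Norm groups of the Kummer extensions `F(b^{1/p})`, against `Idele F` and the places `(q, w)`:
the statements (a)-(d) of the instance plan, plus the first inequality in index form. -/
structure NormLocalData where
  /-- the group of idele norms from `F(b^{1/p})` -/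
  Nglob : Fˣ → Subgroup (Idele F)
  /-- the local norm groups -/
  NlocQ : Fˣ → ∀ (q : Nat.Primes) (w : PrimesOver F q), Subgroup (localField F q w)ˣ
  /-- the archimedean norm group -/
  NlocArch : Fˣ → Subgroup (ArchAlg F)ˣ
  mem_Nglob : ∀ (b : Fˣ) (x : Idele F),
    (∀ (q : Nat.Primes) (w : PrimesOver F q),
      locAlgUnitsEquivPi F q ((x : IdeleProd F).1 q) w ∈ NlocQ b q w) →
    (x : IdeleProd F).2 ∈ NlocArch b → x ∈ Nglob b
  pow_mem_NlocQ : ∀ (b : Fˣ) (q : Nat.Primes) (w : PrimesOver F q) (y : (localField F q w)ˣ),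
    y ^ p ∈ NlocQ b q w
  pow_mem_NlocArch : ∀ (b : Fˣ) (y : (ArchAlg F)ˣ), y ^ p ∈ NlocArch b
  NlocQ_eq_top : ∀ (b : Fˣ) (q : Nat.Primes) (w : PrimesOver F q),
    (∃ y : (localField F q w)ˣ, y ^ p = Units.map (ofField F q w : F →* localField F q w) b) →
    NlocQ b q w = ⊤
  NlocArch_eq_top : ∀ b : Fˣ, (∃ y : (ArchAlg F)ˣ, y ^ p = archUnit F b) → NlocArch b = ⊤
  U_le_NlocQ : ∀ (b : Fˣ) (q : Nat.Primes) (w : PrimesOver F q), (p : 𝓞 F) ∉ w.1.asIdeal →
    ordAt w.1 b = 0 → localIntUnits F q w ≤ NlocQ b q w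
  first_ineq : ∀ b : Fˣ, (principal F).range ⊔ Nglob b = ⊤ → ∃ c : Fˣ, c ^ p = b

/-- Weak approximation modulo `p`-th powers, in the `Idele F` form. -/
def WeakApprox : Prop :=
  ∀ (Q : Finset Nat.Primes) (x : Idele F), ∃ y : Fˣ,
    (∀ q ∈ Q, ∃ z : (LocAlg F q)ˣ, z ^ p = (x : IdeleProd F).1 q / locUnit F q y) ∧
      ∃ z : (ArchAlg F)ˣ, z ^ p = (x : IdeleProd F).2 / archUnit F y

variable {F p}

/-- A property of all places `(q, w)` follows from the property at the places
`(qOf F v, vOver F v)`. -/
lemma forall_place_of_forall_prime {P : ∀ (q : Nat.Primes), PrimesOver F q → Prop}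
    (h : ∀ v : HeightOneSpectrum (𝓞 F), P (qOf F v) (vOver F v)) (q : Nat.Primes)
    (w : PrimesOver F q) : P q w := by
  obtain ⟨v, hv⟩ := (bijective_qOf_vOver F).2 ⟨q, w⟩
  obtain ⟨hq, hw⟩ := Sigma.mk.inj_iff.1 hv
  subst hq
  have hw' : vOver F v = w := eq_of_heq hw
  subst hw'
  exact h v

lemma emb_eq_map_ofField (v : HeightOneSpectrum (𝓞 F)) (b : Fˣ) :
    emb F v b =
      Units.map (ofField F (qOf F v) (vOver F v) : F →* localField F (qOf F v) (vOver F v)) b :=
  Units.ext rfl

/-- Weak approximation in the restricted product over the primes of `𝓞 F`. -/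
lemma weakApprox_Jv (hWA : WeakApprox F p) (T : Finset (HeightOneSpectrum (𝓞 F)))
    (x : ↥(Jv F)) : ∃ y : Fˣ,
    (∀ v ∈ T, ∃ z : Fv F v, z ^ p = (x : ProdV F).1 v / emb F v y) ∧
      ∃ z : (ArchAlg F)ˣ, z ^ p = (x : ProdV F).2 / archUnit F y := by
  classical
  obtain ⟨y, hy1, hy2⟩ := hWA (T.image (qOf F)) ((Instance.ideleEquiv F).symm x)
  have hx : Instance.ideleEquiv F ((Instance.ideleEquiv F).symm x) = x :=
    (Instance.ideleEquiv F).apply_symm_apply x
  refine ⟨y, ?_, ?_⟩
  · intro v hv
    obtain ⟨z, hz⟩ := hy1 (qOf F v) (Finset.mem_image_of_mem _ hv)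
    refine ⟨compAt F (qOf F v) (vOver F v) z, ?_⟩
    rw [← map_pow, hz, map_div]
    have h3 : (x : ProdV F).1 v =
        compAt F (qOf F v) (vOver F v)
          ((((Instance.ideleEquiv F).symm x : Idele F) : IdeleProd F).1 (qOf F v)) := by
      conv_lhs => rw [← hx]
      rfl
    rw [h3]
    rfl
  · obtain ⟨z, hz⟩ := hy2
    refine ⟨z, ?_⟩
    rw [hz]
    have h3 : (x : ProdV F).2 =
        (((Instance.ideleEquiv F).symm x : Idele F) : IdeleProd F).2 := by
      conv_lhs => rw [← hx]
      rfl
    rw [h3]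

/-- **The Kummer model on the ideles of `F`.** -/
def kummerModelOf (D : LocalData F p) (N : NormLocalData F p) (hWA : WeakApprox F p) :
    KummerModel F p where
  toLocalModel := D.toLocalModel
  Nb b := (N.Nglob b).map D.ideleEquiv.toMonoidHom
  Nloc b v := N.NlocQ b (qOf F v) (vOver F v)
  NlocA b := N.NlocArch b
  mem_Nb := by
    intro b x h1 h2
    refine ⟨D.ideleEquiv.symm x, ?_, D.ideleEquiv.apply_symm_apply x⟩
    have hx : D.ideleEquiv (D.ideleEquiv.symm x) = x := D.ideleEquiv.apply_symm_apply x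
    refine N.mem_Nglob b _ ?_ ?_
    · refine forall_place_of_forall_prime (P := fun q w =>
        locAlgUnitsEquivPi F q (((D.ideleEquiv.symm x : Idele F) : IdeleProd F).1 q) w ∈
          N.NlocQ b q w) ?_
      intro v
      have h3 := h1 v
      rw [← hx] at h3
      rw [← compAt_eq]
      exact h3
    · have h3 := h2
      rw [← hx] at h3
      exact h3
  pow_mem_Nloc := fun b v y => N.pow_mem_NlocQ b (qOf F v) (vOver F v) y
  pow_mem_NlocA := fun b y => N.pow_mem_NlocArch b y
  Nloc_eq_top := by
    intro b v hy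
    refine N.NlocQ_eq_top b (qOf F v) (vOver F v) ?_
    obtain ⟨y, hy⟩ := hy
    exact ⟨y, hy.trans (emb_eq_map_ofField v b)⟩
  NlocA_eq_top := fun b hy => N.NlocArch_eq_top b hy
  U_le_Nloc := fun b v hv hb => N.U_le_NlocQ b (qOf F v) (vOver F v) hv hb
  first_ineq := by
    intro b hb
    apply N.first_ineq b
    have h1 : ((principal F).range ⊔ N.Nglob b).map D.ideleEquiv.toMonoidHom = ⊤ := by
      rw [Subgroup.map_sup, D.map_range_principal]
      exact hb
    have h2 : (⊤ : Subgroup (Idele F)).map D.ideleEquiv.toMonoidHom = ⊤ :=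
      Subgroup.map_top_of_surjective _ D.ideleEquiv.surjective
    exact Subgroup.map_injective D.ideleEquiv.injective (h1.trans h2.symm)
  weak_approx := fun T x => weakApprox_Jv hWA T x

@[simp] lemma kummerModelOf_toLocalModel (D : LocalData F p) (N : NormLocalData F p)
    (hWA : WeakApprox F p) : (kummerModelOf D N hWA).toLocalModel = D.toLocalModel := rfl

lemma kummerModelOf_Nb (D : LocalData F p) (N : NormLocalData F p) (hWA : WeakApprox F p)
    (b : Fˣ) : (kummerModelOf D N hWA).Nb b = (N.Nglob b).map D.ideleEquiv.toMonoidHom := rfl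

/-- The norm-index in the model is the norm-index in `Idele F`. -/
theorem index_kummerModelOf (D : LocalData F p) (N : NormLocalData F p) (hWA : WeakApprox F p)
    (b : Fˣ) :
    ((kummerModelOf D N hWA).principal.range ⊔ (kummerModelOf D N hWA).Nb b).index =
      ((principal F).range ⊔ N.Nglob b).index := by
  have h1 : (kummerModelOf D N hWA).principal.range ⊔ (kummerModelOf D N hWA).Nb b =
      ((principal F).range ⊔ N.Nglob b).map D.ideleEquiv.toMonoidHom := by
    rw [Subgroup.map_sup, D.map_range_principal]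
    rfl
  rw [h1]
  exact Subgroup.index_map_equiv _ D.ideleEquiv

end Fermat.Agent.Lib.CFT.Global.SecondIneq.Instance
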