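/-
helper40.  P-CFT work package Global/SecondIneq, instance of the abstract idele model: the
container `WeakApprox F p` of `KModel.lean` (weak approximation modulo `p`-th powers in the
`Idele F` form).
-/
import Mathlib
import Fermat.Agent.Lib.CFT.Global.SecondIneq.Instance.KModel
import Fermat.Agent.Lib.CFT.Global.SecondIneq.Instance.Approx

set_option autoImplicit false

open scoped TensorProduct NumberField

noncomputable section

namespace Fermat.Agent.Lib.CFT.Global.SecondIneq.Instance

open NumberField IsDedekindDomain Fermat.Agent.Lib.CFT.Global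

variable (F : Type) [Field F] [NumberField F]

/-- **Weak approximation modulo `p`-th powers**, in the `Idele F` form. -/
theorem weakApprox (p : ℕ) (hp : p ≠ 0) : WeakApprox F p := by
  intro Q x
  obtain ⟨y, hy, -, hpos⟩ := LocalPowers.exists_principal_approx_pow F x Q p hp
  refine ⟨y, ?_, ?_⟩
  · intro q hq
    obtain ⟨w, -, hwp⟩ := hy q hq
    refine ⟨w, ?_⟩
    rw [hwp, div_eq_mul_inv, mul_comm]
    rfl
  · obtain ⟨z, hz⟩ := exists_pow_eq_of_pos F _ hpos p hp
    refine ⟨z, ?_⟩
    rw [hz, div_eq_mul_inv, mul_comm]
    rfl

end Fermat.Agent.Lib.CFT.Global.SecondIneq.Instance
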