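/-
P-CFT work package Global/SecondIneq (task 205), instance of the abstract idele model, file (I-3):
the norm groups of the Kummer extensions `F(b^{1/p})`.

* `Mb F p b`: the fixed model of `F(b^{1/p})` (splitting field of `X ^ p - b`), with `betaMb`,
  `pbMb` (power basis when `b` is not a `p`-th power), `finrank_Mb_dvd`, `isGalois_Mb`,
  `adjoin_betaMb`;
* `NlocQ F p b q v : Subgroup (localField F q v)ˣ`, `NlocArch F p b : Subgroup (ArchAlg F)ˣ`,
  `NlocV F p b v : Subgroup (Fv F v)`;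
* (a) `mem_range_ideleNorm_of_forall_mem_NlocQ` / `ideleEquiv_symm_mem_range_ideleNorm`;
* (b) `pow_mem_NlocQ`, `pow_mem_NlocArch`, `pow_mem_NlocV`;
* (c) `NlocQ_eq_top`, `NlocArch_eq_top`, `NlocV_eq_top`;
* (d) `UQ_le_NlocQ`, `Uv_le_NlocV` (`p` odd).
-/
import Mathlib
import Fermat.Agent.Lib.CFT.Global.SecondIneq.Instance.Dict
import Fermat.Agent.Lib.CFT.Global.IdeleNorm
import Fermat.Agent.Lib.CFT.Global.KummerLocalSemi
import Fermat.Agent.Lib.CFT.Global.PlacesInfinite

set_option autoImplicit false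
set_option linter.unusedSectionVars false

open scoped TensorProduct NumberField
open Polynomial

noncomputable section

namespace Fermat.Agent.Lib.CFT.Global.SecondIneq.Instance

open NumberField IsDedekindDomain Fermat.Agent.Lib.CFT.Global Fermat.Agent.Lib.CFT.Global.Places

variable (F : Type) [Field F] [NumberField F] (p : ℕ)

/-! ### The fixed model of `F(b^{1/p})` -/

/-- The fixed model of the Kummer extension `F(b^{1/p})`: the splitting field of `X ^ p - b`. -/
abbrev Mb (b : Fˣ) : Type := (X ^ p - C (b : F) : F[X]).SplittingField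

instance numberField_Mb (b : Fˣ) : NumberField (Mb F p b) := NumberField.of_module_finite F _

variable {p}

theorem isGalois_Mb (hp : 0 < p) (b : Fˣ) : IsGalois F (Mb F p b) := by
  apply IsGalois.of_separable_splitting_field (p := X ^ p - C (b : F))
  exact separable_X_pow_sub_C (b : F) (Nat.cast_ne_zero.mpr hp.ne') b.ne_zero

/-- The chosen `p`-th root of `b`. -/
def betaMb (hp : 0 < p) (b : Fˣ) : Mb F p b := rootOfSplitsXPowSubC hp (b : F) (Mb F p b)

theorem betaMb_pow (hp : 0 < p) (b : Fˣ) : betaMb F hp b ^ p = algebraMap F (Mb F p b) b := by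
  have : NeZero p := ⟨hp.ne'⟩
  exact rootOfSplitsXPowSubC_pow (b : F) (Mb F p b)

variable {F}

/-- If `b` is a `p`-th power, `F(b^{1/p}) = F`. -/
theorem finrank_Mb_of_pow {ζ : F} (hζ : IsPrimitiveRoot ζ p) {b : Fˣ} {c : F} (hc : c ^ p = b) :
    Module.finrank F (Mb F p b) = 1 := by
  have hsplit : (X ^ p - C (b : F)).Splits := X_pow_sub_C_splits_of_isPrimitiveRoot hζ hc
  have h1 : (⊤ : Subalgebra F (Mb F p b)) = ⊥ :=
    (IsSplittingField.splits_iff (Mb F p b) (X ^ p - C (b : F))).1 (by simpa using hsplit)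
  exact Subalgebra.bot_eq_top_iff_finrank_eq_one.1 h1.symm

theorem irreducible_of_not_pow (hp : p.Prime) {b : Fˣ} (hb : ¬ ∃ c : F, c ^ p = b) :
    Irreducible (X ^ p - C (b : F)) :=
  X_pow_sub_C_irreducible_of_prime hp fun c hc => hb ⟨c, hc⟩

theorem primitiveRoots_nonempty (hp : 0 < p) {ζ : F} (hζ : IsPrimitiveRoot ζ p) :
    (primitiveRoots p F).Nonempty := ⟨ζ, (mem_primitiveRoots hp).2 hζ⟩

/-- The power basis `1, β, …, β ^ (p - 1)` of `F(b^{1/p})` when `b` is not a `p`-th power. -/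
def pbMb (hp : p.Prime) {ζ : F} (hζ : IsPrimitiveRoot ζ p) {b : Fˣ} (hb : ¬ ∃ c : F, c ^ p = b) :
    PowerBasis F (Mb F p b) :=
  (AdjoinRoot.powerBasis (X_pow_sub_C_ne_zero hp.pos (b : F))).map
    (adjoinRootXPowSubCEquiv (primitiveRoots_nonempty hp.pos hζ) (irreducible_of_not_pow hp hb)
      (betaMb_pow F hp.pos b))

theorem pbMb_gen (hp : p.Prime) {ζ : F} (hζ : IsPrimitiveRoot ζ p) {b : Fˣ}
    (hb : ¬ ∃ c : F, c ^ p = b) : (pbMb hp hζ hb).gen = betaMb F hp.pos b := by
  rw [pbMb, PowerBasis.map_gen, AdjoinRoot.powerBasis_gen, adjoinRootXPowSubCEquiv_root]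

theorem pbMb_dim (hp : p.Prime) {ζ : F} (hζ : IsPrimitiveRoot ζ p) {b : Fˣ}
    (hb : ¬ ∃ c : F, c ^ p = b) : (pbMb hp hζ hb).dim = p := by
  rw [pbMb, PowerBasis.map_dim, AdjoinRoot.powerBasis_dim, natDegree_X_pow_sub_C]

theorem finrank_Mb_of_not_pow (hp : p.Prime) {ζ : F} (hζ : IsPrimitiveRoot ζ p) {b : Fˣ}
    (hb : ¬ ∃ c : F, c ^ p = b) : Module.finrank F (Mb F p b) = p := by
  rw [(pbMb hp hζ hb).finrank, pbMb_dim]

theorem finrank_Mb_dvd (hp : p.Prime) {ζ : F} (hζ : IsPrimitiveRoot ζ p) (b : Fˣ) :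
    Module.finrank F (Mb F p b) ∣ p := by
  by_cases hb : ∃ c : F, c ^ p = b
  · obtain ⟨c, hc⟩ := hb
    rw [finrank_Mb_of_pow hζ hc]
    exact one_dvd p
  · rw [finrank_Mb_of_not_pow hp hζ hb]

theorem adjoin_betaMb (hp : p.Prime) {ζ : F} (hζ : IsPrimitiveRoot ζ p) {b : Fˣ}
    (hb : ¬ ∃ c : F, c ^ p = b) : IntermediateField.adjoin F {betaMb F hp.pos b} = ⊤ :=
  IntermediateField.adjoin_root_eq_top_of_isSplittingField
    (primitiveRoots_nonempty hp.pos hζ) (irreducible_of_not_pow hp hb) (betaMb_pow F hp.pos b)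

/-! ### The semi-local Kummer algebra at `q` -/

section SemiLocal

attribute [local instance] TensorExt.tAlgebra

variable (F : Type) [Field F] [NumberField F]
variable (M : Type) [Field M] [NumberField M] [Algebra F M]

/-- The power basis `1 ⊗ β ^ i` of `ℚ_q ⊗ M` over `ℚ_q ⊗ F`. -/
def pbLoc (q : Nat.Primes) (pb : PowerBasis F M) : PowerBasis (LocAlg F q) (LocAlg M q) where
  gen := (1 : ℚ_[pv q]) ⊗ₜ[ℚ] pb.gen
  dim := pb.dim
  basis := TensorExt.tBasis ℚ_[pv q] pb.basis
  basis_eq_pow i := by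
    rw [TensorExt.tBasis_apply, pb.basis_eq_pow, Algebra.TensorProduct.tmul_pow, one_pow]

variable {F M}

@[simp] theorem pbLoc_gen (q : Nat.Primes) (pb : PowerBasis F M) :
    (pbLoc F M q pb).gen = (1 : ℚ_[pv q]) ⊗ₜ[ℚ] pb.gen := rfl

@[simp] theorem pbLoc_dim (q : Nat.Primes) (pb : PowerBasis F M) :
    (pbLoc F M q pb).dim = pb.dim := rfl

theorem pbLoc_basis (q : Nat.Primes) (pb : PowerBasis F M) :
    (pbLoc F M q pb).basis = TensorExt.tBasis ℚ_[pv q] pb.basis := rfl

theorem pbLoc_gen_pow (q : Nat.Primes) (pb : PowerBasis F M) {p : ℕ} {b : F}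
    (hgen : pb.gen ^ p = algebraMap F M b) :
    (pbLoc F M q pb).gen ^ p = algebraMap (LocAlg F q) (LocAlg M q) ((1 : ℚ_[pv q]) ⊗ₜ[ℚ] b) := by
  rw [pbLoc_gen, Algebra.TensorProduct.tmul_pow, one_pow, hgen, TensorExt.algebraMap_eq_tmap,
    TensorExt.tmap_tmul]

variable (F M)

/-- The local norm group at `(q, v)` of the extension `M / F`: the norms from the base change of
`ℚ_q ⊗ M` to the factor field of `ℚ_q ⊗ F` at `v`. -/
def NlocQM (q : Nat.Primes) (v : PrimesOver F q) : Subgroup (localField F q v)ˣ :=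
  (Units.map (Algebra.norm (localField F q v) :
    (localField F q v ⊗[LocAlg F q] LocAlg M q) →* localField F q v)).range

variable {F M}

theorem mem_NlocQM_iff (q : Nat.Primes) (v : PrimesOver F q) (x : (localField F q v)ˣ) :
    x ∈ NlocQM F M q v ↔ ∃ y : (localField F q v ⊗[LocAlg F q] LocAlg M q)ˣ,
      Algebra.norm (localField F q v) (y : localField F q v ⊗[LocAlg F q] LocAlg M q) =
        (x : localField F q v) := by
  constructor
  · rintro ⟨y, rfl⟩
    exact ⟨y, rfl⟩
  · rintro ⟨y, hy⟩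
    exact ⟨y, Units.ext hy⟩

/-- The embedding `F → localField F q v`. -/
def ofField (q : Nat.Primes) (v : PrimesOver F q) : F →+* localField F q v :=
  (Ideal.Quotient.mk (maxIdeal F q v)).comp
    ((Algebra.TensorProduct.includeRight : F →ₐ[ℚ] LocAlg F q) : F →+* LocAlg F q)

theorem ofField_apply (q : Nat.Primes) (v : PrimesOver F q) (x : F) :
    ofField q v x = algebraMap (LocAlg F q) (localField F q v) ((1 : ℚ_[pv q]) ⊗ₜ[ℚ] x) := rfl

theorem val_compAt_locUnit (q : Nat.Primes) (v : PrimesOver F q) (x : Fˣ) :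
    ((compAt F q v (locUnit F q x) : (localField F q v)ˣ) : localField F q v) =
      ofField q v (x : F) := rfl

/-- The image of an algebraic integer in the local field lies in the valuation ring. -/
theorem ofField_integer (q : Nat.Primes) (v : PrimesOver F q) (c : 𝓞 F) :
    ofField q v (c : F) = algebraMap (localInt F q v) (localField F q v)
      (algebraMap (𝓞 F) (localInt F q v) c) := by
  rw [ofField_apply, ← toLocAlg_algebraMap]
  rfl

/-- `p`-th powers (more generally `[M : F]`-th powers) are local norms. -/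
theorem pow_finrank_mem_NlocQM (q : Nat.Primes) (v : PrimesOver F q) (y : (localField F q v)ˣ) :
    y ^ Module.finrank F M ∈ NlocQM F M q v := by
  rw [mem_NlocQM_iff]
  have hu : IsUnit (algebraMap (localField F q v) (localField F q v ⊗[LocAlg F q] LocAlg M q)
      (y : localField F q v)) := y.isUnit.map _
  refine ⟨hu.unit, ?_⟩
  rw [IsUnit.unit_spec, Algebra.norm_algebraMap_of_basis
    (Algebra.TensorProduct.basis (localField F q v)
      (TensorExt.tBasis ℚ_[pv q] (Module.finBasis F M))), Fintype.card_fin, Units.val_pow_eq_pow_val]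

theorem pow_mem_NlocQM (q : Nat.Primes) (v : PrimesOver F q) {p : ℕ}
    (hdvd : Module.finrank F M ∣ p) (y : (localField F q v)ˣ) : y ^ p ∈ NlocQM F M q v := by
  obtain ⟨k, rfl⟩ := hdvd
  rw [mul_comm, pow_mul]
  exact pow_finrank_mem_NlocQM q v (y ^ k)

/-- If `[M : F] = 1` everything is a norm. -/
theorem NlocQM_eq_top_of_finrank_eq_one (q : Nat.Primes) (v : PrimesOver F q)
    (h : Module.finrank F M = 1) : NlocQM F M q v = ⊤ := by
  rw [eq_top_iff]
  intro x _
  have := pow_finrank_mem_NlocQM (M := M) q v x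
  rwa [h, pow_one] at this

/-- **(c)** If `b` is a `p`-th power in the local field, every element is a local norm from
`F(b^{1/p})`. -/
theorem NlocQM_eq_top_of_pow (q : Nat.Primes) (v : PrimesOver F q) (pb : PowerBasis F M) {p : ℕ}
    (hp : 0 < p) {ζ : F} (hζ : IsPrimitiveRoot ζ p) (hdim : pb.dim = p) {b : Fˣ}
    (hgen : pb.gen ^ p = algebraMap F M b)
    (h : ∃ y : (localField F q v)ˣ, y ^ p = compAt F q v (locUnit F q b)) :
    NlocQM F M q v = ⊤ := by
  rw [eq_top_iff]
  intro x _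
  obtain ⟨y, hy⟩ := h
  rw [mem_NlocQM_iff]
  apply KummerLocal.exists_norm_eq_baseChange_split (localField F q v) (pbLoc F M q pb) hp hdim
    (pbLoc_gen_pow q pb hgen) (hζ.map_of_injective (ofField q v).injective)
    (c := (y : localField F q v)) y.ne_zero
  have := congrArg (fun u : (localField F q v)ˣ => (u : localField F q v)) hy
  simpa [Units.val_pow_eq_pow_val] using this

end SemiLocal

/-! ### Local units -/

section LocalUnits

variable {F : Type} [Field F] [NumberField F]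

instance henselian_localInt (q : Nat.Primes) (v : PrimesOver F q) :
    HenselianLocalRing (localInt F q v) where
  is_henselian f hf a₀ h₁ h₂ :=
    HenselianRing.is_henselian (I := IsLocalRing.maximalIdeal (localInt F q v)) f hf a₀ h₁
      (h₂.map (Ideal.Quotient.mk (IsLocalRing.maximalIdeal (localInt F q v))))

instance finite_residue_localInt (q : Nat.Primes) (v : PrimesOver F q) :
    Finite (IsLocalRing.ResidueField (localInt F q v)) :=
  Finite.of_equiv _ (LocalInt.residueFieldEquiv v).toEquiv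

/-- An algebraic integer outside `v` becomes a unit of the completed local ring. -/
theorem isUnit_algebraMap_localInt (q : Nat.Primes) (v : PrimesOver F q) {c : 𝓞 F}
    (hc : c ∉ v.1.asIdeal) : IsUnit (algebraMap (𝓞 F) (localInt F q v) c) := by
  rw [← IsLocalRing.notMem_maximalIdeal]
  intro h
  apply hc
  have := (LocalInt.algebraMap_mem_maximalIdeal_pow_iff v 1 c).1 (by rwa [pow_one])
  rwa [pow_one] at this

theorem isUnit_natCast_localInt (q : Nat.Primes) (v : PrimesOver F q) {n : ℕ}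
    (hn : (n : 𝓞 F) ∉ v.1.asIdeal) : IsUnit (n : localInt F q v) := by
  have := isUnit_algebraMap_localInt q v hn
  rwa [map_natCast] at this

/-- An element of `F` of valuation one at `v` becomes a unit of the valuation ring of the local
field. -/
theorem exists_unit_eq_ofField (q : Nat.Primes) (v : PrimesOver F q) {x : F}
    (hx : v.1.valuation F x = 1) :
    ∃ u : localInt F q v, IsUnit u ∧
      ofField q v x = algebraMap (localInt F q v) (localField F q v) u := by
  obtain ⟨n, d, hn, hd, hnd⟩ := KummerLocal.exists_num_den_of_valuation_eq_one v.1 hx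
  have hun := isUnit_algebraMap_localInt q v hn
  have hud := isUnit_algebraMap_localInt q v hd
  obtain ⟨d', hd'⟩ := hud.exists_right_inv
  refine ⟨algebraMap (𝓞 F) (localInt F q v) n * d', hun.mul (IsUnit.of_mul_eq_one_right _ hd'), ?_⟩
  have h1 : ofField q v x * ofField q v (d : F) = ofField q v (n : F) := by
    rw [← map_mul, hnd]
  rw [ofField_integer, ofField_integer] at h1
  have h2 : algebraMap (localInt F q v) (localField F q v) (algebraMap (𝓞 F) (localInt F q v) d) *
      algebraMap (localInt F q v) (localField F q v) d' = 1 := by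
    rw [← map_mul, hd', map_one]
  calc ofField q v x = ofField q v x * (algebraMap (localInt F q v) (localField F q v)
        (algebraMap (𝓞 F) (localInt F q v) d) *
        algebraMap (localInt F q v) (localField F q v) d') := by rw [h2, mul_one]
    _ = _ := by rw [← mul_assoc, h1, ← map_mul]

/-- The local units at `(q, v)`. -/
def UQ (F : Type) [Field F] [NumberField F] (q : Nat.Primes) (v : PrimesOver F q) :
    Subgroup (localField F q v)ˣ :=
  (Units.map ((algebraMap (localInt F q v) (localField F q v) : localInt F q v →+* _) :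
    localInt F q v →* localField F q v)).range

theorem mem_UQ_iff (q : Nat.Primes) (v : PrimesOver F q) (x : (localField F q v)ˣ) :
    x ∈ UQ F q v ↔ ∃ a : (localInt F q v)ˣ,
      algebraMap (localInt F q v) (localField F q v) a = (x : localField F q v) := by
  constructor
  · rintro ⟨a, rfl⟩
    exact ⟨a, rfl⟩
  · rintro ⟨a, ha⟩
    exact ⟨a, Units.ext ha⟩

attribute [local instance] TensorExt.tAlgebra

variable {M : Type} [Field M] [NumberField M] [Algebra F M]

/-- **(d)** Away from `p` and the support of `b`, local units are local norms from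
`F(b^{1/p})` (`p` odd), with integral coordinates. -/
theorem exists_norm_eq_of_mem_UQ (q : Nat.Primes) (v : PrimesOver F q) (pb : PowerBasis F M)
    {p : ℕ} (hp : p.Prime) (hp2 : p ≠ 2) {ζ : F} (hζ : IsPrimitiveRoot ζ p) (hdim : pb.dim = p)
    {b : Fˣ} (hgen : pb.gen ^ p = algebraMap F M b) (hpv : (p : 𝓞 F) ∉ v.1.asIdeal)
    (hb : v.1.valuation F (b : F) = 1) {a : localInt F q v} (ha : IsUnit a) :
    ∃ y : (localField F q v ⊗[LocAlg F q] LocAlg M q)ˣ,
      Algebra.norm (localField F q v) (y : localField F q v ⊗[LocAlg F q] LocAlg M q) =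
        algebraMap (localInt F q v) (localField F q v) a ∧
      (∀ l, (Algebra.TensorProduct.basis (localField F q v) (pbLoc F M q pb).basis).repr
        (y : localField F q v ⊗[LocAlg F q] LocAlg M q) l ∈
          (algebraMap (localInt F q v) (localField F q v)).range) ∧
      (∀ l, (Algebra.TensorProduct.basis (localField F q v) (pbLoc F M q pb).basis).repr
        ((y⁻¹ : (localField F q v ⊗[LocAlg F q] LocAlg M q)ˣ) :
          localField F q v ⊗[LocAlg F q] LocAlg M q) l ∈
          (algebraMap (localInt F q v) (localField F q v)).range) := by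
  obtain ⟨u, hu, hbu⟩ := exists_unit_eq_ofField q v hb
  exact KummerLocal.exists_norm_eq_baseChange_of_isUnit (localField F q v) (pbLoc F M q pb) hp hp2
    (isUnit_natCast_localInt q v hpv) (hζ.map_of_injective (ofField q v).injective) hdim
    (pbLoc_gen_pow q pb hgen) hu hbu ha

theorem UQ_le_NlocQM (q : Nat.Primes) (v : PrimesOver F q) (pb : PowerBasis F M)
    {p : ℕ} (hp : p.Prime) (hp2 : p ≠ 2) {ζ : F} (hζ : IsPrimitiveRoot ζ p) (hdim : pb.dim = p)
    {b : Fˣ} (hgen : pb.gen ^ p = algebraMap F M b) (hpv : (p : 𝓞 F) ∉ v.1.asIdeal)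
    (hb : v.1.valuation F (b : F) = 1) : UQ F q v ≤ NlocQM F M q v := by
  intro x hx
  obtain ⟨a, ha⟩ := (mem_UQ_iff q v x).1 hx
  obtain ⟨y, hy, -, -⟩ := exists_norm_eq_of_mem_UQ q v pb hp hp2 hζ hdim hgen hpv hb a.isUnit
  rw [mem_NlocQM_iff]
  exact ⟨y, by rw [hy, ha]⟩

end LocalUnits

/-! ### Locally a norm everywhere implies norm -/

section Glue

attribute [local instance] TensorExt.tAlgebra

variable {F : Type} [Field F] [NumberField F]
variable {M : Type} [Field M] [NumberField M] [Algebra F M]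

theorem finite_setOf_primes_dvd {n : ℕ} (hn : n ≠ 0) : {q : Nat.Primes | (q : ℕ) ∣ n}.Finite := by
  have : {q : Nat.Primes | (q : ℕ) ∣ n} ⊆
      (fun q : Nat.Primes => (q : ℕ)) ⁻¹' ((n.divisors : Finset ℕ) : Set ℕ) := by
    intro q hq
    simp only [Set.mem_preimage, Finset.mem_coe, Nat.mem_divisors]
    exact ⟨hq, hn⟩
  exact Set.Finite.subset (Set.Finite.preimage (Nat.Primes.coe_nat_injective.injOn)
    (Finset.finite_toSet _)) this

theorem exists_nat_mul_isIntegral (β : M) : ∃ d : ℕ, d ≠ 0 ∧ IsIntegral ℤ ((d : M) * β) := by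
  have halg : IsAlgebraic ℤ β := by
    have h1 : IsAlgebraic ℚ β := Algebra.IsAlgebraic.isAlgebraic β
    exact (IsFractionRing.isAlgebraic_iff ℤ ℚ M).2 h1
  obtain ⟨y, hy0, hy⟩ := halg.exists_integral_multiple
  refine ⟨y.natAbs, Int.natAbs_ne_zero.2 hy0, ?_⟩
  rw [zsmul_eq_mul] at hy
  rcases Int.natAbs_eq y with h | h
  · have : ((y.natAbs : ℕ) : M) = ((y : ℤ) : M) := by
      conv_rhs => rw [h]
      simp
    rw [this]; exact hy
  · have : ((y.natAbs : ℕ) : M) * β = -(((y : ℤ) : M) * β) := by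
      conv_rhs => rw [h]
      simp
    rw [this]; exact hy.neg

/-- The ring isomorphism underlying `locAlgEquivPi`, with its specification in terms of
`algebraMap`. -/
theorem locAlgEquivPi_algebraMap (q : Nat.Primes) (r : LocAlg F q) (v : PrimesOver F q) :
    (locAlgEquivPi F q).toRingEquiv r v = algebraMap (LocAlg F q) (localField F q v) r := rfl

/-- An element of `ℚ_q ⊗ M` whose coordinates in the basis `1 ⊗ β ^ i` are integral is integral,
as soon as `1 ⊗ β` is integral. -/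
theorem mem_locInt_of_repr_mem (q : Nat.Primes) (pb : PowerBasis F M)
    (hβ : ((1 : ℚ_[pv q]) ⊗ₜ[ℚ] pb.gen : LocAlg M q) ∈ locInt M q) (y : LocAlg M q)
    (hy : ∀ l, (pbLoc F M q pb).basis.repr y l ∈ (locInt F q).toSubring) : y ∈ locInt M q := by
  rw [← (pbLoc F M q pb).basis.sum_repr y]
  refine Subalgebra.sum_mem _ fun l _ => ?_
  rw [Algebra.smul_def]
  refine Subalgebra.mul_mem _ ?_ ?_
  · rw [TensorExt.algebraMap_eq_tmap, ← locMap_eq_tmap]
    exact locMap_mem_locInt (algebraMap F M) q (hy l)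
  · rw [(pbLoc F M q pb).basis_eq_pow, pbLoc_gen]
    exact Subalgebra.pow_mem _ hβ _

theorem ne_of_not_dvd_of_mem (q : Nat.Primes) (v : PrimesOver F q) {p : ℕ} (hp : p.Prime)
    (hqp : ¬ (q : ℕ) ∣ p) : (p : 𝓞 F) ∉ v.1.asIdeal := by
  intro h
  apply hqp
  have h1 : qOf F v.1 = q := qOf_val F q v
  have h2 : qOf F v.1 = ⟨p, hp⟩ := qOf_eq F v.1 ⟨p, hp⟩ h
  have h3 : q = ⟨p, hp⟩ := h1.symm.trans h2
  rw [h3]

/-- **(a)** An idele of `F` which is a local norm from `M = F(b^{1/p})` at all places is the norm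
of an idele of `M` (`p` odd). -/
theorem mem_range_ideleNorm_of_forall_mem (pb : PowerBasis F M) {p : ℕ} (hp : p.Prime)
    (hp2 : p ≠ 2) {ζ : F} (hζ : IsPrimitiveRoot ζ p) (hdim : pb.dim = p) {b : Fˣ}
    (hgen : pb.gen ^ p = algebraMap F M b) (x : Idele F)
    (hloc : ∀ (q : Nat.Primes) (v : PrimesOver F q),
      compAt F q v ((x : IdeleProd F).1 q) ∈ NlocQM F M q v)
    (harch : (x : IdeleProd F).2 ∈ (archRelNorm F M).range) :
    x ∈ (ideleNorm F M).range := by
  classical
  obtain ⟨d, hd0, hd⟩ := exists_nat_mul_isIntegral pb.gen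
  -- the good primes
  let G : Set Nat.Primes := {q | (x : IdeleProd F).1 q ∈ locIntUnits F q ∧
    locUnit F q b ∈ locIntUnits F q ∧ ¬ (q : ℕ) ∣ p ∧ ¬ (q : ℕ) ∣ d}
  have hGfin : Gᶜ.Finite := by
    have h1 : {q : Nat.Primes | (x : IdeleProd F).1 q ∉ locIntUnits F q}.Finite := x.2
    have h2 := finite_setOf_locUnit_not_mem F b
    have h3 := finite_setOf_primes_dvd hp.ne_zero
    have h4 := finite_setOf_primes_dvd hd0
    refine (((h1.union h2).union h3).union h4).subset ?_
    intro q hq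
    by_contra hcon
    simp only [Set.mem_union, Set.mem_ofPred_eq, not_or, not_not] at hcon
    exact hq ⟨hcon.1.1.1, hcon.1.1.2, hcon.1.2, hcon.2⟩
  -- local preimages
  have hex : ∀ q : Nat.Primes, ∃ y : (LocAlg M q)ˣ,
      Algebra.norm (LocAlg F q) (y : LocAlg M q) = ((x : IdeleProd F).1 q : LocAlg F q) ∧
        (q ∈ G → y ∈ locIntUnits M q) := by
    intro q
    by_cases hq : q ∈ G
    · obtain ⟨hxq, hbq, hqp, hqd⟩ := hq
      have hβ : ((1 : ℚ_[pv q]) ⊗ₜ[ℚ] pb.gen : LocAlg M q) ∈ locInt M q :=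
        one_tmul_mem_locInt_of_mul_integral M q d hqd pb.gen hd
      obtain ⟨y, hyN, hy1, hy2⟩ := KummerLocal.exists_norm_eq_of_semilocal_unramified
        (A := fun v : PrimesOver F q => localInt F q v)
        (locAlgEquivPi F q).toRingEquiv (locAlgEquivPi_algebraMap q) (locInt F q).toSubring
        (fun r hr => (mem_locInt_iff_forall r).2 hr) (pbLoc F M q pb) hp hp2
        (fun v => isUnit_natCast_localInt q v (ne_of_not_dvd_of_mem q v hp hqp))
        (fun v => ⟨_, hζ.map_of_injective (ofField q v).injective⟩) hdim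
        (pbLoc_gen_pow q pb hgen)
        (fun v => by
          obtain ⟨a, ha⟩ := (mem_locIntUnits_iff_forall _).1 hbq v
          exact ⟨a, a.isUnit, ha.symm⟩)
        ((x : IdeleProd F).1 q)
        (fun v => by
          obtain ⟨a, ha⟩ := (mem_locIntUnits_iff_forall _).1 hxq v
          exact ⟨a, a.isUnit, ha.symm⟩)
      refine ⟨y, hyN, fun _ => ?_⟩
      exact ⟨mem_locInt_of_repr_mem q pb hβ _ hy1, mem_locInt_of_repr_mem q pb hβ _ hy2⟩
    · obtain ⟨y, hy⟩ := KummerLocal.exists_norm_eq_of_forall_component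
        (locAlgEquivPi F q).toRingEquiv (locAlgEquivPi_algebraMap q) (pbLoc F M q pb).basis
        ((x : IdeleProd F).1 q) (fun v => (mem_NlocQM_iff q v _).1 (hloc q v))
      exact ⟨y, hy, fun h => absurd h hq⟩
  choose y hyN hyG using hex
  obtain ⟨yinf, hyinf⟩ := harch
  have hmem : ((y, yinf) : IdeleProd M) ∈ ideleSubgroup M := by
    rw [mem_ideleSubgroup]
    refine hGfin.subset ?_
    intro q hq hG
    exact hq (hyG q hG)
  refine ⟨⟨(y, yinf), hmem⟩, ?_⟩
  apply Subtype.ext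
  ext : 1
  · funext q
    apply Units.ext
    rw [ideleNorm_fst, val_locRelNorm]
    exact hyN q
  · rw [ideleNorm_snd]
    exact hyinf

end Glue

/-! ### The archimedean norm group -/

section Arch

attribute [local instance] TensorExt.tAlgebra

/-- A commutative ring in which finitely many distinct maximal ideals have zero intersection is
the product of its residue fields. -/
def equivPiQuotient {R ι : Type*} [CommRing R] [Finite ι] (m : ι → Ideal R)
    (hmax : ∀ i, (m i).IsMaximal) (hinj : Function.Injective m)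
    (hbot : ∀ x : R, (∀ i, x ∈ m i) → x = 0) : R ≃+* ∀ i, R ⧸ m i :=
  RingEquiv.ofBijective (RingHom.pi fun i => Ideal.Quotient.mk (m i)) (by
    constructor
    · rw [injective_iff_map_eq_zero]
      intro x hx
      apply hbot
      intro i
      have := congrFun hx i
      exact Ideal.Quotient.eq_zero_iff_mem.1 this
    · have hcop : Pairwise (Function.onFun IsCoprime m) := by
        intro i j hij
        exact Ideal.isCoprime_iff_sup_eq.2 ((hmax i).coprime_of_ne (hmax j) (hinj.ne hij))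
      intro y
      obtain ⟨z, hz⟩ := Ideal.quotientInfToPiQuotient_surj hcop y
      obtain ⟨x, rfl⟩ := Ideal.Quotient.mk_surjective z
      exact ⟨x, hz⟩)

theorem equivPiQuotient_apply {R ι : Type*} [CommRing R] [Finite ι] (m : ι → Ideal R)
    (hmax : ∀ i, (m i).IsMaximal) (hinj : Function.Injective m)
    (hbot : ∀ x : R, (∀ i, x ∈ m i) → x = 0) (r : R) (i : ι) :
    equivPiQuotient m hmax hinj hbot r i = algebraMap R (R ⧸ m i) r := rfl

variable {F : Type} [Field F] [NumberField F]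
variable {M : Type} [Field M] [NumberField M] [Algebra F M]

variable (F M) in
/-- The power basis `1 ⊗ β ^ i` of `ℝ ⊗ M` over `ℝ ⊗ F`. -/
def pbArch (pb : PowerBasis F M) : PowerBasis (ArchAlg F) (ArchAlg M) where
  gen := (1 : ℝ) ⊗ₜ[ℚ] pb.gen
  dim := pb.dim
  basis := TensorExt.tBasis ℝ pb.basis
  basis_eq_pow i := by
    rw [TensorExt.tBasis_apply, pb.basis_eq_pow, Algebra.TensorProduct.tmul_pow, one_pow]

theorem pbArch_gen_pow (pb : PowerBasis F M) {p : ℕ} {b : F}
    (hgen : pb.gen ^ p = algebraMap F M b) :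
    (pbArch F M pb).gen ^ p = algebraMap (ArchAlg F) (ArchAlg M) ((1 : ℝ) ⊗ₜ[ℚ] b) := by
  change ((1 : ℝ) ⊗ₜ[ℚ] pb.gen : ArchAlg M) ^ p = _
  rw [Algebra.TensorProduct.tmul_pow, one_pow, hgen, TensorExt.algebraMap_eq_tmap,
    TensorExt.tmap_tmul]

/-- `p`-th powers are archimedean norms. -/
theorem pow_mem_range_archRelNorm {p : ℕ} (hdvd : Module.finrank F M ∣ p) (y : (ArchAlg F)ˣ) :
    y ^ p ∈ (archRelNorm F M).range := by
  obtain ⟨k, rfl⟩ := hdvd
  refine ⟨archUnitsMap (algebraMap F M) (y ^ k), ?_⟩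
  apply Units.ext
  rw [val_archRelNorm, val_archUnitsMap, archMap_eq_tmap, TensorExt.norm_tmap, mul_comm, pow_mul,
    Units.val_pow_eq_pow_val, Units.val_pow_eq_pow_val, Units.val_pow_eq_pow_val]

theorem range_archRelNorm_eq_top_of_finrank_eq_one (h : Module.finrank F M = 1) :
    (archRelNorm F M).range = ⊤ := by
  rw [eq_top_iff]
  intro x _
  have := pow_mem_range_archRelNorm (F := F) (M := M) (p := 1) (by rw [h]) x
  rwa [pow_one] at this

/-- **(c) at infinity.** If `b` is a `p`-th power in `(ℝ ⊗ F)ˣ`, every unit of `ℝ ⊗ F` is a norm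
from `ℝ ⊗ F(b^{1/p})`. -/
theorem range_archRelNorm_eq_top_of_pow (pb : PowerBasis F M) {p : ℕ} (hp : 0 < p) {ζ : F}
    (hζ : IsPrimitiveRoot ζ p) (hdim : pb.dim = p) {b : Fˣ}
    (hgen : pb.gen ^ p = algebraMap F M b) (h : ∃ y : (ArchAlg F)ˣ, y ^ p = archUnit F b) :
    (archRelNorm F M).range = ⊤ := by
  classical
  rw [eq_top_iff]
  intro x _
  obtain ⟨y, hy⟩ := h
  have hmax : ∀ w : InfinitePlace F, (PlacesInfinite.maxIdeal F w).IsMaximal :=
    fun w => PlacesInfinite.maxIdeal_isMaximal w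
  let k : InfinitePlace F → Type := fun w => ArchAlg F ⧸ PlacesInfinite.maxIdeal F w
  let _ : ∀ w, Field (k w) := fun w => @Ideal.Quotient.field _ _ _ (hmax w)
  let e : ArchAlg F ≃+* ∀ w, k w := equivPiQuotient (PlacesInfinite.maxIdeal F) hmax
    PlacesInfinite.maxIdeal_injective (fun x hx => PlacesInfinite.eq_zero_of_forall_mem_maxIdeal hx)
  have he : ∀ r w, e r w = algebraMap (ArchAlg F) (k w) r := fun r w => rfl
  have hy' : (y : ArchAlg F) ^ p = (1 : ℝ) ⊗ₜ[ℚ] (b : F) := by
    have := congrArg (fun u : (ArchAlg F)ˣ => (u : ArchAlg F)) hy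
    simpa [Units.val_pow_eq_pow_val] using this
  obtain ⟨z, hz⟩ := KummerLocal.exists_norm_eq_of_forall_component e he (pbArch F M pb).basis x
    (fun w => by
      let φ : F →+* k w := (algebraMap (ArchAlg F) (k w)).comp
        ((Algebra.TensorProduct.includeRight : F →ₐ[ℚ] ArchAlg F) : F →+* ArchAlg F)
      have hc0 : algebraMap (ArchAlg F) (k w) (y : ArchAlg F) ≠ 0 :=
        (y.isUnit.map (algebraMap (ArchAlg F) (k w))).ne_zero
      have hc : algebraMap (ArchAlg F) (k w) (y : ArchAlg F) ^ p =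
          algebraMap (ArchAlg F) (k w) ((1 : ℝ) ⊗ₜ[ℚ] (b : F)) := by
        rw [← map_pow, hy']
      obtain ⟨u, hu⟩ := KummerLocal.exists_norm_eq_baseChange_split (k w) (pbArch F M pb) hp hdim
        (pbArch_gen_pow pb hgen) (hζ.map_of_injective φ.injective) hc0 hc
        (Units.map ((algebraMap (ArchAlg F) (k w) : ArchAlg F →+* k w) : ArchAlg F →* k w) x)
      exact ⟨u, hu⟩)
  exact ⟨z, Units.ext hz⟩

end Arch

/-! ### The norm groups of the fixed model `Mb F p b` -/

section Final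

variable (F : Type) [Field F] [NumberField F] (p : ℕ)

/-- The local norm group of `F(b^{1/p})` at `(q, v)`. -/
def NlocQ (b : Fˣ) (q : Nat.Primes) (v : PrimesOver F q) : Subgroup (localField F q v)ˣ :=
  NlocQM F (Mb F p b) q v

/-- The archimedean norm group of `F(b^{1/p})`. -/
def NlocArch (b : Fˣ) : Subgroup (ArchAlg F)ˣ := (archRelNorm F (Mb F p b)).range

/-- The local norm group of `F(b^{1/p})` at the prime `v` of `𝓞 F`. -/
def NlocV (b : Fˣ) (v : HeightOneSpectrum (𝓞 F)) : Subgroup (Fv F v) :=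
  NlocQ F p b (qOf F v) (vOver F v)

variable {F p}

theorem pbMb_gen_pow (hp : p.Prime) {ζ : F} (hζ : IsPrimitiveRoot ζ p) {b : Fˣ}
    (hb : ¬ ∃ c : F, c ^ p = b) :
    (pbMb hp hζ hb).gen ^ p = algebraMap F (Mb F p b) b := by
  rw [pbMb_gen, betaMb_pow]

/-- **(a)** Locally a norm everywhere implies norm. -/
theorem mem_range_ideleNorm_of_forall_mem_NlocQ (hp : p.Prime) (hp2 : p ≠ 2) {ζ : F}
    (hζ : IsPrimitiveRoot ζ p) (b : Fˣ) (x : Idele F)
    (hloc : ∀ (q : Nat.Primes) (v : PrimesOver F q),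
      compAt F q v ((x : IdeleProd F).1 q) ∈ NlocQ F p b q v)
    (harch : (x : IdeleProd F).2 ∈ NlocArch F p b) :
    x ∈ (ideleNorm F (Mb F p b)).range := by
  by_cases hb : ∃ c : F, c ^ p = b
  · obtain ⟨c, hc⟩ := hb
    refine ⟨ideleMap (algebraMap F (Mb F p b)) x, ?_⟩
    rw [ideleNorm_ideleMap, finrank_Mb_of_pow hζ hc, pow_one]
  · exact mem_range_ideleNorm_of_forall_mem (pbMb hp hζ hb) hp hp2 hζ (pbMb_dim hp hζ hb)
      (pbMb_gen_pow hp hζ hb) x hloc harch

/-- **(b)** `p`-th powers are local norms. -/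
theorem pow_mem_NlocQ (hp : p.Prime) {ζ : F} (hζ : IsPrimitiveRoot ζ p) (b : Fˣ) (q : Nat.Primes)
    (v : PrimesOver F q) (y : (localField F q v)ˣ) : y ^ p ∈ NlocQ F p b q v :=
  pow_mem_NlocQM q v (finrank_Mb_dvd hp hζ b) y

theorem pow_mem_NlocArch (hp : p.Prime) {ζ : F} (hζ : IsPrimitiveRoot ζ p) (b : Fˣ)
    (y : (ArchAlg F)ˣ) : y ^ p ∈ NlocArch F p b :=
  pow_mem_range_archRelNorm (finrank_Mb_dvd hp hζ b) y

/-- **(c)** Where `b` is a local `p`-th power, everything is a local norm. -/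
theorem NlocQ_eq_top (hp : p.Prime) {ζ : F} (hζ : IsPrimitiveRoot ζ p) (b : Fˣ) (q : Nat.Primes)
    (v : PrimesOver F q) (h : ∃ y : (localField F q v)ˣ, y ^ p = compAt F q v (locUnit F q b)) :
    NlocQ F p b q v = ⊤ := by
  by_cases hb : ∃ c : F, c ^ p = b
  · obtain ⟨c, hc⟩ := hb
    exact NlocQM_eq_top_of_finrank_eq_one q v (finrank_Mb_of_pow hζ hc)
  · exact NlocQM_eq_top_of_pow q v (pbMb hp hζ hb) hp.pos hζ (pbMb_dim hp hζ hb)
      (pbMb_gen_pow hp hζ hb) h

theorem NlocArch_eq_top (hp : p.Prime) {ζ : F} (hζ : IsPrimitiveRoot ζ p) (b : Fˣ)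
    (h : ∃ y : (ArchAlg F)ˣ, y ^ p = archUnit F b) : NlocArch F p b = ⊤ := by
  by_cases hb : ∃ c : F, c ^ p = b
  · obtain ⟨c, hc⟩ := hb
    exact range_archRelNorm_eq_top_of_finrank_eq_one (finrank_Mb_of_pow hζ hc)
  · exact range_archRelNorm_eq_top_of_pow (pbMb hp hζ hb) hp.pos hζ (pbMb_dim hp hζ hb)
      (pbMb_gen_pow hp hζ hb) h

/-- **(d)** Away from `p` and the support of `b`, local units are local norms (`p` odd). -/
theorem UQ_le_NlocQ (hp : p.Prime) (hp2 : p ≠ 2) {ζ : F} (hζ : IsPrimitiveRoot ζ p) (b : Fˣ)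
    (q : Nat.Primes) (v : PrimesOver F q) (hpv : (p : 𝓞 F) ∉ v.1.asIdeal)
    (hbv : SUnits.ordAt v.1 b = 0) : UQ F q v ≤ NlocQ F p b q v := by
  by_cases hb : ∃ c : F, c ^ p = b
  · obtain ⟨c, hc⟩ := hb
    rw [NlocQ, NlocQM_eq_top_of_finrank_eq_one q v (finrank_Mb_of_pow hζ hc)]
    exact le_top
  · exact UQ_le_NlocQM q v (pbMb hp hζ hb) hp hp2 hζ (pbMb_dim hp hζ hb)
      (pbMb_gen_pow hp hζ hb) hpv ((SUnits.valuation_eq_one_iff_ordAt v.1 b).2 hbv)

/-! ### The forms indexed by the primes of `𝓞 F` (fields of `KummerModel`) -/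

theorem mapEquiv_castEquiv_mem_NlocQM_iff {M : Type} [Field M] [NumberField M] [Algebra F M]
    (v : HeightOneSpectrum (𝓞 F)) {q₁ q₂ : Nat.Primes} (h : q₁ = q₂)
    (h₁ : ((pv q₁ : ℕ) : 𝓞 F) ∈ v.asIdeal) (h₂ : ((pv q₂ : ℕ) : 𝓞 F) ∈ v.asIdeal)
    (u : (localField F q₁ ⟨v, h₁⟩)ˣ) :
    Units.mapEquiv (castEquiv F v h h₁ h₂).toMulEquiv u ∈ NlocQM F M q₂ ⟨v, h₂⟩ ↔
      u ∈ NlocQM F M q₁ ⟨v, h₁⟩ := by
  subst h
  exact Iff.rfl

theorem toFvEquiv_mem_NlocV_iff (b : Fˣ) (q : Nat.Primes) (w : PrimesOver F q)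
    (u : (localField F q w)ˣ) :
    toFvEquiv F q w u ∈ NlocV F p b w.1 ↔ u ∈ NlocQ F p b q w :=
  mapEquiv_castEquiv_mem_NlocQM_iff w.1 _ _ _ u

/-- **(a)**, indexed by the primes of `𝓞 F`: field `mem_Nb`. -/
theorem ideleEquiv_symm_mem_range_ideleNorm (hp : p.Prime) (hp2 : p ≠ 2) {ζ : F}
    (hζ : IsPrimitiveRoot ζ p) (b : Fˣ) (y : ↥(Jv F))
    (hloc : ∀ v : HeightOneSpectrum (𝓞 F), (y : ProdV F).1 v ∈ NlocV F p b v)
    (harch : (y : ProdV F).2 ∈ NlocArch F p b) :
    (ideleEquiv F).symm y ∈ (ideleNorm F (Mb F p b)).range := by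
  apply mem_range_ideleNorm_of_forall_mem_NlocQ hp hp2 hζ b
  · intro q w
    rw [← toFvEquiv_mem_NlocV_iff, compAt_ideleEquiv_symm]
    exact hloc w.1
  · exact harch

/-- field `pow_mem_Nloc` -/
theorem pow_mem_NlocV (hp : p.Prime) {ζ : F} (hζ : IsPrimitiveRoot ζ p) (b : Fˣ)
    (v : HeightOneSpectrum (𝓞 F)) (y : Fv F v) : y ^ p ∈ NlocV F p b v :=
  pow_mem_NlocQ hp hζ b _ _ y

/-- field `Nloc_eq_top` -/
theorem NlocV_eq_top (hp : p.Prime) {ζ : F} (hζ : IsPrimitiveRoot ζ p) (b : Fˣ)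
    (v : HeightOneSpectrum (𝓞 F)) (h : ∃ y : Fv F v, y ^ p = emb F v b) : NlocV F p b v = ⊤ :=
  NlocQ_eq_top hp hζ b _ _ h

/-- field `U_le_Nloc` (`p` odd) -/
theorem Uv_le_NlocV (hp : p.Prime) (hp2 : p ≠ 2) {ζ : F} (hζ : IsPrimitiveRoot ζ p) (b : Fˣ)
    (v : HeightOneSpectrum (𝓞 F)) (hpv : (p : 𝓞 F) ∉ v.asIdeal) (hbv : SUnits.ordAt v b = 0) :
    Uv F v ≤ NlocV F p b v :=
  UQ_le_NlocQ hp hp2 hζ b (qOf F v) (vOver F v) hpv hbv

end Final

end Fermat.Agent.Lib.CFT.Global.SecondIneq.Instance
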