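/-
P-CFT work package Global/SecondIneq (task 205), instance of the abstract idele model:
the container `NormLocalData F p` of `KModel.lean`, filled from `NormLocal.lean`
(`p` odd; the first inequality is an explicit hypothesis).
-/
import Mathlib
import Fermat.Agent.Lib.CFT.Global.SecondIneq.Instance.NormLocal
import Fermat.Agent.Lib.CFT.Global.SecondIneq.Instance.KModel

set_option autoImplicit false

open scoped TensorProduct NumberField
open Polynomial

noncomputable section

namespace Fermat.Agent.Lib.CFT.Global.SecondIneq.Instance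

open NumberField IsDedekindDomain Fermat.Agent.Lib.CFT.Global Fermat.Agent.Lib.CFT.Global.Places

variable (F : Type) [Field F] [NumberField F] {p : ℕ}

/-- The first inequality for the Kummer extensions `F(b^{1/p})`, in index form. -/
def FirstIneqKummer (p : ℕ) : Prop :=
  ∀ b : Fˣ, (¬ ∃ c : F, c ^ p = b) →
    (principal F).range ⊔ (ideleNorm F (Mb F p b)).range ≠ ⊤

/-- The first inequality for cyclic extensions of prime degree `p` of `F`, in index form. -/
def FirstIneqCyclic (p : ℕ) : Prop :=
  ∀ (M : Type) [Field M] [NumberField M] [Algebra F M] [IsGalois F M],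
    IsCyclic Gal(M/F) → Module.finrank F M = p →
      (principal F).range ⊔ (ideleNorm F M).range ≠ ⊤

variable {F}

theorem firstIneqKummer_of_cyclic (hp : p.Prime) {ζ : F} (hζ : IsPrimitiveRoot ζ p)
    (h : FirstIneqCyclic F p) : FirstIneqKummer F p := by
  intro b hb
  have hgal : IsGalois F (Mb F p b) := isGalois_Mb F hp.pos b
  have hdeg : Module.finrank F (Mb F p b) = p := finrank_Mb_of_not_pow hp hζ hb
  have hcard : Nat.card Gal(Mb F p b/F) = p := by
    rw [IsGalois.card_aut_eq_finrank, hdeg]
  have : Fact p.Prime := ⟨hp⟩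
  have hcyc : IsCyclic Gal(Mb F p b/F) := isCyclic_of_prime_card hcard
  exact h (Mb F p b) hcyc hdeg

/-- **The container `NormLocalData F p`** (`p` odd), from the norm groups of `NormLocal.lean`. -/
def normLocalData (hp : p.Prime) (hp2 : p ≠ 2) {ζ : F} (hζ : IsPrimitiveRoot ζ p)
    (hFI : FirstIneqKummer F p) : NormLocalData F p where
  Nglob b := (ideleNorm F (Mb F p b)).range
  NlocQ b q w := NlocQ F p b q w
  NlocArch b := NlocArch F p b
  mem_Nglob b x h1 h2 := mem_range_ideleNorm_of_forall_mem_NlocQ hp hp2 hζ b x h1 h2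
  pow_mem_NlocQ b q w y := pow_mem_NlocQ hp hζ b q w y
  pow_mem_NlocArch b y := pow_mem_NlocArch hp hζ b y
  NlocQ_eq_top b q w h := NlocQ_eq_top hp hζ b q w h
  NlocArch_eq_top b h := NlocArch_eq_top hp hζ b h
  U_le_NlocQ b q w hpw hb := UQ_le_NlocQ hp hp2 hζ b q w hpw hb
  first_ineq b hb := by
    by_contra hcon
    apply hFI b _ hb
    rintro ⟨c, hc⟩
    apply hcon
    have hc0 : c ≠ 0 := by
      rintro rfl
      rw [zero_pow hp.ne_zero] at hc
      exact b.ne_zero hc.symm
    exact ⟨Units.mk0 c hc0, Units.ext hc⟩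

@[simp] theorem normLocalData_Nglob (hp : p.Prime) (hp2 : p ≠ 2) {ζ : F}
    (hζ : IsPrimitiveRoot ζ p) (hFI : FirstIneqKummer F p) (b : Fˣ) :
    (normLocalData hp hp2 hζ hFI).Nglob b = (ideleNorm F (Mb F p b)).range := rfl

end Fermat.Agent.Lib.CFT.Global.SecondIneq.Instance
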