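/-
P-CFT work package Global/SecondIneq (task 205), instance of the abstract idele model:
the statements of `NormLocal.lean` that used `p ≠ 2`, for EVERY prime `p` (the case `p = 2` via
`KummerLocalSemiAll.lean` / `KummerLocalNormTwo.lean`), and the container `NormLocalData F p`
of `KModel.lean` for every prime `p`.

* (d) `exists_norm_eq_of_mem_UQ_all`, `UQ_le_NlocQM_all`, `UQ_le_NlocQ_all`, `Uv_le_NlocV_all`;
* (a) `mem_range_ideleNorm_of_forall_mem_all`, `mem_range_ideleNorm_of_forall_mem_NlocQ_all`,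
  `ideleEquiv_symm_mem_range_ideleNorm_all`;
* `normLocalDataAll hp hζ hFI : NormLocalData F p`.
-/
import Mathlib
import Fermat.Agent.Lib.CFT.Global.SecondIneq.Instance.NormLocalDataInst
import Fermat.Agent.Lib.CFT.Global.KummerLocalSemiAll

set_option autoImplicit false
set_option linter.unusedSectionVars false

open scoped TensorProduct NumberField
open Polynomial

noncomputable section

namespace Fermat.Agent.Lib.CFT.Global.SecondIneq.Instance

open NumberField IsDedekindDomain Fermat.Agent.Lib.CFT.Global Fermat.Agent.Lib.CFT.Global.Places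

section LocalUnitsAll

attribute [local instance] TensorExt.tAlgebra

variable {F : Type} [Field F] [NumberField F]
variable {M : Type} [Field M] [NumberField M] [Algebra F M]

/-- **(d)** Away from `p` and the support of `b`, local units are local norms from
`F(b^{1/p})` (every prime `p`), with integral coordinates. -/
theorem exists_norm_eq_of_mem_UQ_all (q : Nat.Primes) (v : PrimesOver F q) (pb : PowerBasis F M)
    {p : ℕ} (hp : p.Prime) {ζ : F} (hζ : IsPrimitiveRoot ζ p) (hdim : pb.dim = p)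
    {b : Fˣ} (hgen : pb.gen ^ p = algebraMap F M b) (hpv : (p : 𝓞 F) ∉ v.1.asIdeal)
    (hb : v.1.valuation F (b : F) = 1) {a : localInt F q v} (ha : IsUnit a) :
    ∃ y : (localField F q v ⊗[LocAlg F q] LocAlg M q)ˣ,
      Algebra.norm (localField F q v) (y : localField F q v ⊗[LocAlg F q] LocAlg M q) =
        algebraMap (localInt F q v) (localField F q v) a ∧
      (∀ l, (Algebra.TensorProduct.basis (localField F q v) (pbLoc F M q pb).basis).repr
        (y : localField F q v ⊗[LocAlg F q] LocAlg M q) l ∈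
          (algebraMap (localInt F q v) (localField F q v)).range) ∧
      (∀ l, (Algebra.TensorProduct.basis (localField F q v) (pbLoc F M q pb).basis).repr
        ((y⁻¹ : (localField F q v ⊗[LocAlg F q] LocAlg M q)ˣ) :
          localField F q v ⊗[LocAlg F q] LocAlg M q) l ∈
          (algebraMap (localInt F q v) (localField F q v)).range) := by
  obtain ⟨u, hu, hbu⟩ := exists_unit_eq_ofField q v hb
  exact KummerLocal.exists_norm_eq_baseChange_of_isUnit_all (localField F q v) (pbLoc F M q pb) hp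
    (isUnit_natCast_localInt q v hpv) (hζ.map_of_injective (ofField q v).injective) hdim
    (pbLoc_gen_pow q pb hgen) hu hbu ha

theorem UQ_le_NlocQM_all (q : Nat.Primes) (v : PrimesOver F q) (pb : PowerBasis F M)
    {p : ℕ} (hp : p.Prime) {ζ : F} (hζ : IsPrimitiveRoot ζ p) (hdim : pb.dim = p)
    {b : Fˣ} (hgen : pb.gen ^ p = algebraMap F M b) (hpv : (p : 𝓞 F) ∉ v.1.asIdeal)
    (hb : v.1.valuation F (b : F) = 1) : UQ F q v ≤ NlocQM F M q v := by
  intro x hx
  obtain ⟨a, ha⟩ := (mem_UQ_iff q v x).1 hx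
  obtain ⟨y, hy, -, -⟩ := exists_norm_eq_of_mem_UQ_all q v pb hp hζ hdim hgen hpv hb a.isUnit
  rw [mem_NlocQM_iff]
  exact ⟨y, by rw [hy, ha]⟩

/-- **(a)** An idele of `F` which is a local norm from `M = F(b^{1/p})` at all places is the norm
of an idele of `M` (every prime `p`). -/
theorem mem_range_ideleNorm_of_forall_mem_all (pb : PowerBasis F M) {p : ℕ} (hp : p.Prime)
    {ζ : F} (hζ : IsPrimitiveRoot ζ p) (hdim : pb.dim = p) {b : Fˣ}
    (hgen : pb.gen ^ p = algebraMap F M b) (x : Idele F)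
    (hloc : ∀ (q : Nat.Primes) (v : PrimesOver F q),
      compAt F q v ((x : IdeleProd F).1 q) ∈ NlocQM F M q v)
    (harch : (x : IdeleProd F).2 ∈ (archRelNorm F M).range) :
    x ∈ (ideleNorm F M).range := by
  classical
  obtain ⟨d, hd0, hd⟩ := exists_nat_mul_isIntegral pb.gen
  -- the good primes
  let G : Set Nat.Primes := {q | (x : IdeleProd F).1 q ∈ locIntUnits F q ∧
    locUnit F q b ∈ locIntUnits F q ∧ ¬ (q : ℕ) ∣ p ∧ ¬ (q : ℕ) ∣ d}
  have hGfin : Gᶜ.Finite := by
    have h1 : {q : Nat.Primes | (x : IdeleProd F).1 q ∉ locIntUnits F q}.Finite := x.2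
    have h2 := finite_setOf_locUnit_not_mem F b
    have h3 := finite_setOf_primes_dvd hp.ne_zero
    have h4 := finite_setOf_primes_dvd hd0
    refine (((h1.union h2).union h3).union h4).subset ?_
    intro q hq
    by_contra hcon
    simp only [Set.mem_union, Set.mem_ofPred_eq, not_or, not_not] at hcon
    exact hq ⟨hcon.1.1.1, hcon.1.1.2, hcon.1.2, hcon.2⟩
  -- local preimages
  have hex : ∀ q : Nat.Primes, ∃ y : (LocAlg M q)ˣ,
      Algebra.norm (LocAlg F q) (y : LocAlg M q) = ((x : IdeleProd F).1 q : LocAlg F q) ∧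
        (q ∈ G → y ∈ locIntUnits M q) := by
    intro q
    by_cases hq : q ∈ G
    · obtain ⟨hxq, hbq, hqp, hqd⟩ := hq
      have hβ : ((1 : ℚ_[pv q]) ⊗ₜ[ℚ] pb.gen : LocAlg M q) ∈ locInt M q :=
        one_tmul_mem_locInt_of_mul_integral M q d hqd pb.gen hd
      obtain ⟨y, hyN, hy1, hy2⟩ := KummerLocal.exists_norm_eq_of_semilocal_unramified_all
        (A := fun v : PrimesOver F q => localInt F q v)
        (locAlgEquivPi F q).toRingEquiv (locAlgEquivPi_algebraMap q) (locInt F q).toSubring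
        (fun r hr => (mem_locInt_iff_forall r).2 hr) (pbLoc F M q pb) hp
        (fun v => isUnit_natCast_localInt q v (ne_of_not_dvd_of_mem q v hp hqp))
        (fun v => ⟨_, hζ.map_of_injective (ofField q v).injective⟩) hdim
        (pbLoc_gen_pow q pb hgen)
        (fun v => by
          obtain ⟨a, ha⟩ := (mem_locIntUnits_iff_forall _).1 hbq v
          exact ⟨a, a.isUnit, ha.symm⟩)
        ((x : IdeleProd F).1 q)
        (fun v => by
          obtain ⟨a, ha⟩ := (mem_locIntUnits_iff_forall _).1 hxq v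
          exact ⟨a, a.isUnit, ha.symm⟩)
      refine ⟨y, hyN, fun _ => ?_⟩
      exact ⟨mem_locInt_of_repr_mem q pb hβ _ hy1, mem_locInt_of_repr_mem q pb hβ _ hy2⟩
    · obtain ⟨y, hy⟩ := KummerLocal.exists_norm_eq_of_forall_component
        (locAlgEquivPi F q).toRingEquiv (locAlgEquivPi_algebraMap q) (pbLoc F M q pb).basis
        ((x : IdeleProd F).1 q) (fun v => (mem_NlocQM_iff q v _).1 (hloc q v))
      exact ⟨y, hy, fun h => absurd h hq⟩
  choose y hyN hyG using hex
  obtain ⟨yinf, hyinf⟩ := harch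
  have hmem : ((y, yinf) : IdeleProd M) ∈ ideleSubgroup M := by
    rw [mem_ideleSubgroup]
    refine hGfin.subset ?_
    intro q hq hG
    exact hq (hyG q hG)
  refine ⟨⟨(y, yinf), hmem⟩, ?_⟩
  apply Subtype.ext
  ext : 1
  · funext q
    apply Units.ext
    rw [ideleNorm_fst, val_locRelNorm]
    exact hyN q
  · rw [ideleNorm_snd]
    exact hyinf

end LocalUnitsAll

section FinalAll

variable {F : Type} [Field F] [NumberField F] {p : ℕ}

/-- **(a)** Locally a norm everywhere implies norm (every prime `p`). -/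
theorem mem_range_ideleNorm_of_forall_mem_NlocQ_all (hp : p.Prime) {ζ : F}
    (hζ : IsPrimitiveRoot ζ p) (b : Fˣ) (x : Idele F)
    (hloc : ∀ (q : Nat.Primes) (v : PrimesOver F q),
      compAt F q v ((x : IdeleProd F).1 q) ∈ NlocQ F p b q v)
    (harch : (x : IdeleProd F).2 ∈ NlocArch F p b) :
    x ∈ (ideleNorm F (Mb F p b)).range := by
  by_cases hb : ∃ c : F, c ^ p = b
  · obtain ⟨c, hc⟩ := hb
    refine ⟨ideleMap (algebraMap F (Mb F p b)) x, ?_⟩
    rw [ideleNorm_ideleMap, finrank_Mb_of_pow hζ hc, pow_one]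
  · exact mem_range_ideleNorm_of_forall_mem_all (pbMb hp hζ hb) hp hζ (pbMb_dim hp hζ hb)
      (pbMb_gen_pow hp hζ hb) x hloc harch

/-- **(d)** Away from `p` and the support of `b`, local units are local norms (every prime
`p`). -/
theorem UQ_le_NlocQ_all (hp : p.Prime) {ζ : F} (hζ : IsPrimitiveRoot ζ p) (b : Fˣ)
    (q : Nat.Primes) (v : PrimesOver F q) (hpv : (p : 𝓞 F) ∉ v.1.asIdeal)
    (hbv : SUnits.ordAt v.1 b = 0) : UQ F q v ≤ NlocQ F p b q v := by
  by_cases hb : ∃ c : F, c ^ p = b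
  · obtain ⟨c, hc⟩ := hb
    rw [NlocQ, NlocQM_eq_top_of_finrank_eq_one q v (finrank_Mb_of_pow hζ hc)]
    exact le_top
  · exact UQ_le_NlocQM_all q v (pbMb hp hζ hb) hp hζ (pbMb_dim hp hζ hb)
      (pbMb_gen_pow hp hζ hb) hpv ((SUnits.valuation_eq_one_iff_ordAt v.1 b).2 hbv)

/-- **(a)**, indexed by the primes of `𝓞 F`: field `mem_Nb` (every prime `p`). -/
theorem ideleEquiv_symm_mem_range_ideleNorm_all (hp : p.Prime) {ζ : F}
    (hζ : IsPrimitiveRoot ζ p) (b : Fˣ) (y : ↥(Jv F))
    (hloc : ∀ v : HeightOneSpectrum (𝓞 F), (y : ProdV F).1 v ∈ NlocV F p b v)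
    (harch : (y : ProdV F).2 ∈ NlocArch F p b) :
    (ideleEquiv F).symm y ∈ (ideleNorm F (Mb F p b)).range := by
  apply mem_range_ideleNorm_of_forall_mem_NlocQ_all hp hζ b
  · intro q w
    rw [← toFvEquiv_mem_NlocV_iff, compAt_ideleEquiv_symm]
    exact hloc w.1
  · exact harch

/-- field `U_le_Nloc` (every prime `p`) -/
theorem Uv_le_NlocV_all (hp : p.Prime) {ζ : F} (hζ : IsPrimitiveRoot ζ p) (b : Fˣ)
    (v : HeightOneSpectrum (𝓞 F)) (hpv : (p : 𝓞 F) ∉ v.asIdeal) (hbv : SUnits.ordAt v b = 0) :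
    Uv F v ≤ NlocV F p b v :=
  UQ_le_NlocQ_all hp hζ b (qOf F v) (vOver F v) hpv hbv

/-- **The container `NormLocalData F p`, every prime `p`.** -/
def normLocalDataAll (hp : p.Prime) {ζ : F} (hζ : IsPrimitiveRoot ζ p)
    (hFI : FirstIneqKummer F p) : NormLocalData F p where
  Nglob b := (ideleNorm F (Mb F p b)).range
  NlocQ b q w := NlocQ F p b q w
  NlocArch b := NlocArch F p b
  mem_Nglob b x h1 h2 := mem_range_ideleNorm_of_forall_mem_NlocQ_all hp hζ b x h1 h2
  pow_mem_NlocQ b q w y := pow_mem_NlocQ hp hζ b q w y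
  pow_mem_NlocArch b y := pow_mem_NlocArch hp hζ b y
  NlocQ_eq_top b q w h := NlocQ_eq_top hp hζ b q w h
  NlocArch_eq_top b h := NlocArch_eq_top hp hζ b h
  U_le_NlocQ b q w hpw hb := UQ_le_NlocQ_all hp hζ b q w hpw hb
  first_ineq b hb := by
    by_contra hcon
    apply hFI b _ hb
    rintro ⟨c, hc⟩
    apply hcon
    have hc0 : c ≠ 0 := by
      rintro rfl
      rw [zero_pow hp.ne_zero] at hc
      exact b.ne_zero hc.symm
    exact ⟨Units.mk0 c hc0, Units.ext hc⟩

@[simp] theorem normLocalDataAll_Nglob (hp : p.Prime) {ζ : F}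
    (hζ : IsPrimitiveRoot ζ p) (hFI : FirstIneqKummer F p) (b : Fˣ) :
    (normLocalDataAll hp hζ hFI).Nglob b = (ideleNorm F (Mb F p b)).range := rfl

end FinalAll

end Fermat.Agent.Lib.CFT.Global.SecondIneq.Instance
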