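/-
P-CFT work package Global/SecondIneq (task 205): **the second inequality of global class field
theory**, `[J_K : Kˣ · N J_L] ∣ [L : K]` for Galois extensions `L / K` of number fields of prime
degree, from the first inequality (as a hypothesis).

* `FirstIneqAll`            : the first inequality in index form, for all cyclic extensions of prime
                              degree of all number fields (hypothesis);
* `firstIneqAll_of_herbrand`: it follows from the Herbrand quotient form `FirstIneqHerbrand`;
* `kummerModel`             : the Kummer idele model of a number field containing `ζ_p`;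
* `second_inequality_kummer`: the second inequality for `L / K` of degree `p` with `ζ_p ∈ K`;
* `second_inequality`       : the second inequality for `L / K` Galois of prime degree `p`;
* `secondIneqPrime`         : the form `Consequences.SecondIneqPrime` used downstream.
-/
import Mathlib
import Fermat.Agent.Lib.CFT.Global.IdeleNormEquiv
import Fermat.Agent.Lib.CFT.Global.SecondIneq.Abstract
import Fermat.Agent.Lib.CFT.Global.SecondIneq.PrimeDegree
import Fermat.Agent.Lib.CFT.Global.SecondIneq.ConsequencesCyclic
import Fermat.Agent.Lib.CFT.Global.SecondIneq.Instance.LocalDataInst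
import Fermat.Agent.Lib.CFT.Global.SecondIneq.Instance.ApproxIdele
import Fermat.Agent.Lib.CFT.Global.SecondIneq.Instance.NormLocalAll

set_option autoImplicit false

open scoped TensorProduct NumberField
open Polynomial IntermediateField

noncomputable section

namespace Fermat.Agent.Lib.CFT.Global.SecondIneq.Instance

open NumberField IsDedekindDomain Fermat.Agent.Lib.CFT Fermat.Agent.Lib.CFT.Herbrand
  Fermat.Agent.Lib.CFT.Global Fermat.Agent.Lib.CFT.Global.SecondIneq
  Fermat.Agent.Lib.CFT.Global.SecondIneq.Consequences

/-- The first inequality in index form, for every cyclic extension of prime degree of every number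
field: `Kˣ · N J_M ≠ J_F`. -/
def FirstIneqAll : Prop :=
  ∀ (p : ℕ) (F : Type) [Field F] [NumberField F], p.Prime → FirstIneqCyclic F p

/-- The Herbrand quotient form of the first inequality implies the index form. -/
theorem firstIneqAll_of_herbrand (h1 : FirstIneqHerbrand) : FirstIneqAll := by
  intro p F _ _ hp M _ _ _ _ hcyc hdeg htop
  classical
  let _ : CommGroup (M ≃ₐ[F] M) := IsCyclic.commGroup
  obtain ⟨s, hs⟩ := IsCyclic.exists_generator (α := (M ≃ₐ[F] M))
  obtain ⟨hfin, hherb⟩ := h1 F M s hs
  have hmul := FirstIneq.hIndexMul_eq_mul_of_herbrandCycMul_eq hfin hherb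
  rw [hIndexMul_eq_index F M hs, htop, Subgroup.index_top, hdeg] at hmul
  exact hp.one_lt.ne' (Nat.eq_one_of_mul_eq_one_right hmul.symm)

section Kummer

variable (F : Type) [Field F] [NumberField F] {p : ℕ}

/-- **The Kummer idele model of a number field `F ∋ ζ_p`** (given the first inequality). -/
def kummerModel (hp : p.Prime) {ζ : F} (hζ : IsPrimitiveRoot ζ p) (hFI : FirstIneqCyclic F p) :
    KummerModel F p :=
  kummerModelOf (localData F hp hζ)
    (normLocalDataAll hp hζ (firstIneqKummer_of_cyclic hp hζ hFI)) (weakApprox F p hp.ne_zero)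

/-- The norm index of the Kummer model is the norm index of the ideles. -/
theorem index_kummerModel (hp : p.Prime) {ζ : F} (hζ : IsPrimitiveRoot ζ p)
    (hFI : FirstIneqCyclic F p) (b : Fˣ) :
    ((kummerModel F hp hζ hFI).principal.range ⊔ (kummerModel F hp hζ hFI).Nb b).index =
      ((principal F).range ⊔ (ideleNorm F (Mb F p b)).range).index :=
  index_kummerModelOf _ _ _ b

end Kummer

section Generator

/-- A cyclic extension of prime degree `p` of a field containing the `p`-th roots of unity is
generated by a `p`-th root, and is a splitting field of `X ^ p - a`. -/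
theorem exists_kummer_generator (K L : Type*) [Field K] [Field L] [Algebra K L]
    [FiniteDimensional K L] [IsGalois K L] [IsCyclic (L ≃ₐ[K] L)] {p : ℕ} (hp : p.Prime)
    (hdeg : Module.finrank K L = p) {ζ : K} (hζ : IsPrimitiveRoot ζ p) :
    ∃ (a : Kˣ) (α : L), α ^ p = algebraMap K L a ∧ K⟮α⟯ = ⊤ ∧
      IsSplittingField K L (X ^ p - C (a : K)) := by
  have hK : (primitiveRoots (Module.finrank K L) K).Nonempty := by
    rw [hdeg]
    exact ⟨ζ, (mem_primitiveRoots hp.pos).2 hζ⟩
  obtain ⟨α, ⟨a₀, ha₀⟩, hα⟩ := exists_root_adjoin_eq_top_of_isCyclic K L hK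
  have hsplit := isSplittingField_X_pow_sub_C_of_root_adjoin_eq_top hK ha₀.symm hα
  rw [hdeg] at ha₀ hsplit
  have ha0 : a₀ ≠ 0 := by
    rintro rfl
    rw [map_zero] at ha₀
    have hα0 : α = 0 := pow_eq_zero_iff hp.ne_zero |>.1 ha₀.symm
    rw [hα0, adjoin_zero] at hα
    have h1 : Module.finrank K L = 1 := by
      have h2 : Module.finrank K (⊤ : IntermediateField K L) = 1 := by
        rw [← hα]; exact IntermediateField.finrank_bot
      rwa [IntermediateField.finrank_top'] at h2
    rw [hdeg] at h1
    exact hp.one_lt.ne' h1
  exact ⟨Units.mk0 a₀ ha0, α, ha₀.symm, hα, hsplit⟩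

end Generator

section Main

/-- **Second inequality, Kummer case**: `L / K` Galois of prime degree `p` with `ζ_p ∈ K`. -/
theorem second_inequality_kummer (hFI : FirstIneqAll) {p : ℕ} (hp : p.Prime)
    (K L : Type) [Field K] [NumberField K] [Field L] [NumberField L] [Algebra K L] [IsGalois K L]
    (hdeg : Module.finrank K L = p) (hroot : ∃ ζ : K, IsPrimitiveRoot ζ p) :
    ((principal K).range ⊔ (ideleNorm K L).range).index ∣ p := by
  obtain ⟨ζ, hζ⟩ := hroot
  have hcard : Nat.card (L ≃ₐ[K] L) = p := by
    rw [IsGalois.card_aut_eq_finrank, hdeg]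
  have : Fact p.Prime := ⟨hp⟩
  have hcyc : IsCyclic (L ≃ₐ[K] L) := isCyclic_of_prime_card hcard
  obtain ⟨a, α, hα, hgen, hsplit⟩ := exists_kummer_generator K L hp hdeg hζ
  have hζL : IsPrimitiveRoot (algebraMap K L ζ) p :=
    hζ.map_of_injective (algebraMap K L).injective
  have hne : Module.finrank K L ≠ 1 := by
    rw [hdeg]
    exact hp.one_lt.ne'
  have h1 := second_inequality_model (kummerModel K hp hζ (hFI p K hp))
    (kummerModel L hp hζL (hFI p L hp)) hp hζ a α hα hgen hne
  rw [index_kummerModel] at h1
  have e : L ≃ₐ[K] Mb K p a := Polynomial.IsSplittingField.algEquiv L (X ^ p - C (a : K))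
  rw [range_ideleNorm_eq_of_algEquiv K e]
  exact h1

/-- **The second inequality of global class field theory**, for Galois extensions of prime degree:
`[J_K : Kˣ · N J_L]` divides `[L : K]`. -/
theorem second_inequality (hFI : FirstIneqAll) {p : ℕ} (hp : p.Prime)
    (K L : Type) [Field K] [NumberField K] [Field L] [NumberField L] [Algebra K L] [IsGalois K L]
    (hdeg : Module.finrank K L = p) :
    ((principal K).range ⊔ (ideleNorm K L).range).index ∣ p :=
  index_dvd_of_prime_degree
    (fun K' L' _ _ _ _ _ _ hdeg' hroot' => second_inequality_kummer hFI hp K' L' hdeg' hroot')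
    K L hp hdeg

/-- The second inequality in the form used by `Consequences`. -/
theorem secondIneqPrime (hFI : FirstIneqAll) : SecondIneqPrime := by
  intro K L _ _ _ _ _ _ hp
  exact second_inequality hFI hp K L rfl

/-- Both inequalities from the Herbrand quotient of the idele class group: every Galois layer of
prime degree is good (`H¹ = 0`, `|H²| ∣ [L : K]`). -/
theorem primeLayersGood_of_herbrand (h1 : FirstIneqHerbrand) : PrimeLayersGood :=
  primeLayersGood h1 (secondIneqPrime (firstIneqAll_of_herbrand h1))

end Main

end Fermat.Agent.Lib.CFT.Global.SecondIneq.Instance
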