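/-
P-CFT work package Global/SecondIneq (task 205), instance of the abstract idele model, file (I-1):
the local data of the model over the definitions of `Instance/Defs.lean`:
the normalised valuation `ordV`, the reduction of local units `redV` with the Hensel property away
from `p`, the product `index_p_Fv` of the local `p`-power indices, and the resulting
`localModel F hp hζ : LocalModel F p`.
-/
import Mathlib
import Fermat.Agent.Lib.CFT.Global.SecondIneq.Instance.Defs
import Fermat.Agent.Lib.CFT.Global.Places.LocAlgUnits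
import Fermat.Agent.Lib.CFT.Local.UnitsFiltration
import Fermat.Agent.Lib.CFT.Global.KummerLocal
import Fermat.Agent.Lib.CFT.Global.ArchIndexTwo

set_option autoImplicit false

open scoped TensorProduct NumberField

noncomputable section

namespace Fermat.Agent.Lib.CFT.Global.SecondIneq.Instance

open NumberField IsDedekindDomain IsLocalRing Fermat.Agent.Lib.CFT.Global
  Fermat.Agent.Lib.CFT.Global.Places Fermat.Agent.Lib.CFT.Global.SUnits
  Fermat.Agent.Lib.CFT.Local.UnitsFiltration

section DVR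

variable {B : Type*} [CommRing B] [IsDomain B] [IsDiscreteValuationRing B]
variable {L : Type*} [Field L] [Algebra B L] [IsFractionRing B L]

/-- In the fraction field of a discrete valuation ring, `m ≤ ord y ↔ y ∈ 𝔪^m` for integral `y`. -/
theorem natCast_le_ord_iff (y : Lˣ) (b : B) (hb : (y : L) = algebraMap B L b) (m : ℕ) :
    (m : ℤ) ≤ ord B L y ↔ b ∈ maximalIdeal B ^ m := by
  have h1 := dvrVal_eq_exp_neg_ord (B := B) y
  rw [hb, HeightOneSpectrum.valuation_of_algebraMap] at h1
  have h2 := (IsDiscreteValuationRing.maximalIdeal B).intValuation_le_pow_iff_mem b m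
  rw [h1, WithZero.exp_le_exp] at h2
  have h3 : (IsDiscreteValuationRing.maximalIdeal B).asIdeal = maximalIdeal B := rfl
  rw [h3] at h2
  rw [← h2]
  constructor <;> intro h <;> omega

/-- Two nonnegative integers with the same natural lower bounds are equal. -/
theorem int_eq_of_forall_natCast_le {s t : ℤ} (hs : 0 ≤ s) (ht : 0 ≤ t)
    (h : ∀ m : ℕ, (m : ℤ) ≤ s ↔ (m : ℤ) ≤ t) : s = t := by
  have h1 := (h s.toNat).1 (by rw [Int.toNat_of_nonneg hs])
  have h2 := (h t.toNat).2 (by rw [Int.toNat_of_nonneg ht])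
  rw [Int.toNat_of_nonneg hs] at h1
  rw [Int.toNat_of_nonneg ht] at h2
  omega

end DVR

variable (F : Type) [Field F] [NumberField F]

/-! ### The valuation -/

/-- The normalised valuation on `(Kv F v)ˣ`. -/
def ordV (v : HeightOneSpectrum (𝓞 F)) : Fv F v →* Multiplicative ℤ := ordHom (Ov F v) (Kv F v)

theorem ordV_apply (v : HeightOneSpectrum (𝓞 F)) (y : Fv F v) :
    ordV F v y = Multiplicative.ofAdd (ord (Ov F v) (Kv F v) y) := rfl

theorem ordV_ker (v : HeightOneSpectrum (𝓞 F)) : (ordV F v).ker = Uv F v := by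
  rw [ordV, ker_ordHom]
  rfl

theorem ordV_surjective (v : HeightOneSpectrum (𝓞 F)) : Function.Surjective (ordV F v) :=
  ordHom_surjective

/-- `toKv` on algebraic integers factors through `Ov`. -/
theorem toKv_integer (v : HeightOneSpectrum (𝓞 F)) (a : 𝓞 F) :
    toKv F v (a : F) = algebraMap (Ov F v) (Kv F v) (algebraMap (𝓞 F) (Ov F v) a) :=
  ofField_algebraMap (vOver F v) a

/-- The valuation of a nonzero algebraic integer. -/
theorem ord_emb_integer (v : HeightOneSpectrum (𝓞 F)) {a : 𝓞 F} (ha : (a : F) ≠ 0) :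
    ord (Ov F v) (Kv F v) (emb F v (Units.mk0 (a : F) ha)) = ordAt v (Units.mk0 (a : F) ha) := by
  have hval : ((emb F v (Units.mk0 (a : F) ha) : Fv F v) : Kv F v) =
      algebraMap (Ov F v) (Kv F v) (algebraMap (𝓞 F) (Ov F v) a) := by
    rw [val_emb, Units.val_mk0, toKv_integer]
  apply int_eq_of_forall_natCast_le
  · rw [ord_nonneg_iff]
    exact ⟨_, hval.symm⟩
  · exact ordAt_mk0_nonneg v ha
  · intro m
    rw [natCast_le_ord_iff _ _ hval, natCast_le_ordAt_mk0_iff v ha]
    exact LocalInt.algebraMap_mem_maximalIdeal_pow_iff (vOver F v) m a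

theorem ordV_emb (v : HeightOneSpectrum (𝓞 F)) (x : Fˣ) :
    ordV F v (emb F v x) = Multiplicative.ofAdd (ordAt v x) := by
  obtain ⟨a, b, ha0, hb0, hab⟩ : ∃ a b : 𝓞 F, (a : F) ≠ 0 ∧ (b : F) ≠ 0 ∧
      (x : F) = (a : F) / (b : F) := by
    obtain ⟨⟨a, b⟩, h⟩ := IsLocalization.surj (nonZeroDivisors (𝓞 F)) (x : F)
    have hb0 : ((b : 𝓞 F) : F) ≠ 0 := by simp
    have hab : (x : F) = (a : F) / ((b : 𝓞 F) : F) := by
      rw [eq_div_iff hb0]
      simpa using h
    refine ⟨a, b, ?_, hb0, hab⟩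
    intro h0
    rw [h0, zero_div] at hab
    exact x.ne_zero hab
  have hx : x = Units.mk0 (a : F) ha0 * (Units.mk0 (b : F) hb0)⁻¹ := by
    ext
    simp [hab, div_eq_mul_inv]
  rw [hx, map_mul, map_inv, map_mul, map_inv, ordV_apply, ordV_apply, ord_emb_integer,
    ord_emb_integer, ordAt_mul, ordAt_inv, ofAdd_add, ofAdd_neg]


/-- A local ring which is complete for its maximal ideal is Henselian. -/
theorem henselianLocalRing_of_complete (B : Type*) [CommRing B] [IsLocalRing B]
    [IsAdicComplete (maximalIdeal B) B] : HenselianLocalRing B where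
  is_henselian f hf a₀ h₁ h₂ :=
    (IsAdicComplete.henselianRing B (maximalIdeal B)).is_henselian f hf a₀ h₁ (h₂.map _)

instance henselianOv (v : HeightOneSpectrum (𝓞 F)) : HenselianLocalRing (Ov F v) :=
  henselianLocalRing_of_complete _

/-! ### The reduction map -/

/-- The units of the valuation ring, identified with `Uv`. -/
def uvEquiv (v : HeightOneSpectrum (𝓞 F)) : (Ov F v)ˣ ≃* Uv F v :=
  MonoidHom.ofInjective
    (f := Units.map ((algebraMap (Ov F v) (Kv F v) : Ov F v →+* Kv F v) : Ov F v →* Kv F v))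
    (Units.map_injective (FaithfulSMul.algebraMap_injective _ _))

theorem coe_uvEquiv (v : HeightOneSpectrum (𝓞 F)) (a : (Ov F v)ˣ) :
    (((uvEquiv F v a : Uv F v) : Fv F v) : Kv F v) = algebraMap (Ov F v) (Kv F v) a := rfl

theorem coe_uvEquiv_symm (v : HeightOneSpectrum (𝓞 F)) (u : Uv F v) :
    algebraMap (Ov F v) (Kv F v) (((uvEquiv F v).symm u : (Ov F v)ˣ) : Ov F v) =
      ((u : Fv F v) : Kv F v) := by
  conv_rhs => rw [← (uvEquiv F v).apply_symm_apply u]
  rfl

/-- The residue field of `Ov F v` is `𝓞 F ⧸ v`. -/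
def resEquiv (v : HeightOneSpectrum (𝓞 F)) : (𝓞 F ⧸ v.asIdeal) ≃+* ResidueField (Ov F v) :=
  LocalInt.residueFieldEquiv (vOver F v)

theorem resEquiv_mk (v : HeightOneSpectrum (𝓞 F)) (c : 𝓞 F) :
    resEquiv F v (Ideal.Quotient.mk _ c) = residue (Ov F v) (algebraMap (𝓞 F) (Ov F v) c) := rfl

/-- Reduction of the local units to the residue field of `v`. -/
def redV (v : HeightOneSpectrum (𝓞 F)) : Uv F v →* (𝓞 F ⧸ v.asIdeal)ˣ :=
  ((Units.mapEquiv (resEquiv F v).symm.toMulEquiv).toMonoidHom.comp (unitsResidue (Ov F v))).comp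
    (uvEquiv F v).symm.toMonoidHom

theorem coe_redV (v : HeightOneSpectrum (𝓞 F)) (u : Uv F v) :
    ((redV F v u : (𝓞 F ⧸ v.asIdeal)ˣ) : 𝓞 F ⧸ v.asIdeal) =
      (resEquiv F v).symm (residue (Ov F v) (((uvEquiv F v).symm u : (Ov F v)ˣ) : Ov F v)) := rfl

theorem redV_surjective (v : HeightOneSpectrum (𝓞 F)) : Function.Surjective (redV F v) := by
  intro z
  obtain ⟨a, ha⟩ := unitsResidue_surjective (B := Ov F v)
    (Units.mapEquiv (resEquiv F v).toMulEquiv z)
  refine ⟨uvEquiv F v a, ?_⟩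
  apply Units.ext
  rw [coe_redV, MulEquiv.symm_apply_apply, ← coe_unitsResidue, ha]
  exact (resEquiv F v).symm_apply_apply _

theorem redV_emb (v : HeightOneSpectrum (𝓞 F)) (c : 𝓞 F) (x : Fˣ) (u : Uv F v)
    (hx : (x : F) = (c : F)) (hu : (u : Fv F v) = emb F v x) :
    ((redV F v u : (𝓞 F ⧸ v.asIdeal)ˣ) : 𝓞 F ⧸ v.asIdeal) = Ideal.Quotient.mk v.asIdeal c := by
  have h1 : algebraMap (Ov F v) (Kv F v) (((uvEquiv F v).symm u : (Ov F v)ˣ) : Ov F v) =
      algebraMap (Ov F v) (Kv F v) (algebraMap (𝓞 F) (Ov F v) c) := by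
    rw [coe_uvEquiv_symm, hu, val_emb, hx]
    exact ofField_algebraMap (vOver F v) c
  have h2 := FaithfulSMul.algebraMap_injective (Ov F v) (Kv F v) h1
  rw [coe_redV, h2, ← resEquiv_mk, RingEquiv.symm_apply_apply]

theorem isUnit_natCast_Ov (v : HeightOneSpectrum (𝓞 F)) {p : ℕ} (hpv : (p : 𝓞 F) ∉ v.asIdeal) :
    IsUnit ((p : ℕ) : Ov F v) := by
  by_contra h
  have h1 : ((p : ℕ) : Ov F v) ∈ maximalIdeal (Ov F v) := (mem_maximalIdeal _).2 h
  have h2 := (LocalInt.algebraMap_mem_maximalIdeal_pow_iff (vOver F v) 1 (p : 𝓞 F)).1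
    (by rw [pow_one, map_natCast]; exact h1)
  rw [pow_one] at h2
  exact hpv h2

theorem redV_ker (v : HeightOneSpectrum (𝓞 F)) {p : ℕ} (hpv : (p : 𝓞 F) ∉ v.asIdeal)
    (u : Uv F v) (hu : redV F v u = 1) : ∃ u' : Uv F v, u' ^ p = u := by
  set a : (Ov F v)ˣ := (uvEquiv F v).symm u with ha
  have h1 : residue (Ov F v) (a : Ov F v) = 1 := by
    have h := congrArg (fun z : (𝓞 F ⧸ v.asIdeal)ˣ => resEquiv F v (z : 𝓞 F ⧸ v.asIdeal)) hu
    simp only [coe_redV, RingEquiv.apply_symm_apply, Units.val_one, map_one] at h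
    exact h
  have h2 : (a : Ov F v) - 1 ∈ maximalIdeal (Ov F v) := by
    rw [← residue_eq_zero_iff, map_sub, h1, map_one, sub_self]
  obtain ⟨y, hy, hy1⟩ := KummerLocal.exists_pow_eq_of_sub_one_mem (isUnit_natCast_Ov F v hpv) h2
  have hp0 : p ≠ 0 := by
    rintro rfl
    have := isUnit_natCast_Ov F v hpv
    simp only [Nat.cast_zero, isUnit_zero_iff] at this
    exact zero_ne_one this
  have hyu : IsUnit y := by
    have : IsUnit (y ^ p) := by rw [hy]; exact a.isUnit
    exact (isUnit_pow_iff hp0).1 this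
  refine ⟨uvEquiv F v hyu.unit, ?_⟩
  rw [← map_pow, ← (uvEquiv F v).apply_symm_apply u]
  congr 1
  apply Units.ext
  rw [Units.val_pow_eq_pow_val, IsUnit.unit_spec, hy]


/-- The index of `n`-th powers in `Fv F w.1` and in the field indexed by `(q, w)` agree. -/
theorem index_powSubgroup_Fv (q : Nat.Primes) (w : PrimesOver F q) (n : ℕ) :
    (powSubgroup (Fv F w.1) n).index =
      (powMonoidHom n : (localField F q w)ˣ →* (localField F q w)ˣ).range.index :=
  (ArchIndex.index_range_pow_congr (Units.mapEquiv (toKvEquiv F q w).toMulEquiv) n).symm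

/-- **The field `index_p` of the local model.** -/
theorem index_p_Fv {p : ℕ} (hp : p.Prime) {ζ : F} (hζ : IsPrimitiveRoot ζ p)
    (P : Finset (HeightOneSpectrum (𝓞 F))) (hP : ∀ v, v ∈ P ↔ (p : 𝓞 F) ∈ v.asIdeal) :
    (∏ v ∈ P, (powSubgroup (Fv F v) p).index) * (powSubgroup (ArchAlg F)ˣ p).index =
      p ^ (2 * P.card + 2 * Fintype.card (InfinitePlace F)) := by
  classical
  have : NeZero p := ⟨hp.ne_zero⟩
  have hζ' : IsPrimitiveRoot hζ.toInteger p := hζ.toInteger_isPrimitiveRoot
  have key := ArchIndex.prod_index_mul_archIndex_general (L := F) (p := pv ⟨p, hp⟩)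
    (ζ := hζ.toInteger) hζ' (fun w => localField F ⟨p, hp⟩ w)
  have hprod : ∏ v ∈ P, (powSubgroup (Fv F v) p).index =
      ∏ w : PrimesOver F ⟨p, hp⟩, (powMonoidHom p : (localField F ⟨p, hp⟩ w)ˣ →*
        (localField F ⟨p, hp⟩ w)ˣ).range.index := by
    rw [Finset.prod_subtype P hP]
    exact Finset.prod_congr rfl fun w _ => index_powSubgroup_Fv F ⟨p, hp⟩ w p
  have hcard : Fintype.card (PrimesOver F ⟨p, hp⟩) = P.card :=
    @Fintype.card_of_subtype _ _ P hP (inferInstanceAs (Fintype (PrimesOver F ⟨p, hp⟩)))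
  rw [hprod, ← hcard]
  exact key


/-! ### The local model -/

/-- **The local data of the idele model of a number field `F` containing the `p`-th roots of
unity**: completions `Fv F v = (Kv F v)ˣ`, local units `Uv F v`, the embeddings `emb F v`, and the
archimedean component `(ℝ ⊗ F)ˣ`. -/
def localModel {p : ℕ} (hp : p.Prime) {ζ : F} (hζ : IsPrimitiveRoot ζ p) : LocalModel F p where
  Fv := Fv F
  U := Uv F
  emb := emb F
  ord := ordV F
  ord_ker := ordV_ker F
  ord_surjective := ordV_surjective F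
  ord_emb := ordV_emb F
  red := redV F
  red_surjective := redV_surjective F
  red_ker := fun v hpv u hu => redV_ker F v hpv u hu
  red_emb := redV_emb F
  A := (ArchAlg F)ˣ
  embA := archUnit F
  index_p := index_p_Fv F hp hζ

section Fields

variable {p : ℕ} (hp : p.Prime) {ζ : F} (hζ : IsPrimitiveRoot ζ p)

@[simp] theorem localModel_Fv : (localModel F hp hζ).Fv = Fv F := rfl

@[simp] theorem localModel_U : (localModel F hp hζ).U = Uv F := rfl

@[simp] theorem localModel_emb : (localModel F hp hζ).emb = emb F := rfl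

@[simp] theorem localModel_ord : (localModel F hp hζ).ord = ordV F := rfl

@[simp] theorem localModel_red : (localModel F hp hζ).red = redV F := rfl

@[simp] theorem localModel_A : (localModel F hp hζ).A = (ArchAlg F)ˣ := rfl

@[simp] theorem localModel_embA : (localModel F hp hζ).embA = archUnit F := rfl

end Fields

end Fermat.Agent.Lib.CFT.Global.SecondIneq.Instance
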