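/-
P-CFT work package Global/SecondIneq (task 205), instance of the abstract idele model:
the `LocalData F p` of `Instance/KModel.lean` from the lemmas of `Instance/Local.lean`.
-/
import Mathlib
import Fermat.Agent.Lib.CFT.Global.SecondIneq.Instance.Local
import Fermat.Agent.Lib.CFT.Global.SecondIneq.Instance.KModel

set_option autoImplicit false

open scoped TensorProduct NumberField

noncomputable section

namespace Fermat.Agent.Lib.CFT.Global.SecondIneq.Instance

open NumberField IsDedekindDomain Fermat.Agent.Lib.CFT.Global Fermat.Agent.Lib.CFT.Global.Places

variable (F : Type) [Field F] [NumberField F]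

/-- The local data of a number field `F` containing the `p`-th roots of unity. -/
def localData {p : ℕ} (hp : p.Prime) {ζ : F} (hζ : IsPrimitiveRoot ζ p) : LocalData F p where
  ord := ordV F
  ord_ker := ordV_ker F
  ord_surjective := ordV_surjective F
  ord_emb := ordV_emb F
  red := redV F
  red_surjective := redV_surjective F
  red_ker := fun v hpv u hu => redV_ker F v hpv u hu
  red_emb := redV_emb F
  index_p := index_p_Fv F hp hζ

theorem localData_toLocalModel {p : ℕ} (hp : p.Prime) {ζ : F} (hζ : IsPrimitiveRoot ζ p) :
    (localData F hp hζ).toLocalModel = localModel F hp hζ := rfl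

end Fermat.Agent.Lib.CFT.Global.SecondIneq.Instance
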