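/-
P-CFT work package Global/SecondIneq (task 205) / Global/Existence (task 220):
(d') local units are local norms from `F(b^{1/p})` at the places `v ∤ p` with `p ∣ ord_v b`
(every prime `p`).

* `pbScale pb c`: the power basis `1, β/c, (β/c)^2, …` of `F[β]`;
* `unif_exists_ordAt_eq_one`, `unif_ordAt_zpow`, `unif_exists_ordAt_eq`: uniformisers;
* `UQ_le_NlocQ_of_dvd`, `Uv_le_NlocV_of_dvd`.
-/
import Mathlib
import Fermat.Agent.Lib.CFT.Global.SecondIneq.Instance.NormLocalAll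

set_option autoImplicit false
set_option linter.unusedSectionVars false

open scoped TensorProduct NumberField
open Polynomial

noncomputable section

namespace Fermat.Agent.Lib.CFT.Global.SecondIneq.Instance

open NumberField IsDedekindDomain Fermat.Agent.Lib.CFT.Global Fermat.Agent.Lib.CFT.Global.Places

section Scale

variable {K E : Type*} [Field K] [CommRing E] [Algebra K E]

/-- The power basis `1, β/c, (β/c)^2, …` of `K[β]`. -/
def pbScale (pb : PowerBasis K E) (c : Kˣ) : PowerBasis K E where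
  gen := ((c⁻¹ : Kˣ) : K) • pb.gen
  dim := pb.dim
  basis := pb.basis.unitsSMul fun i => (c⁻¹ : Kˣ) ^ (i : ℕ)
  basis_eq_pow i := by
    rw [Module.Basis.unitsSMul_apply, pb.basis_eq_pow, _root_.smul_pow, Units.smul_def, Units.val_pow_eq_pow_val]

@[simp] theorem pbScale_gen (pb : PowerBasis K E) (c : Kˣ) :
    (pbScale pb c).gen = ((c⁻¹ : Kˣ) : K) • pb.gen := rfl

@[simp] theorem pbScale_dim (pb : PowerBasis K E) (c : Kˣ) : (pbScale pb c).dim = pb.dim := rfl

theorem pbScale_gen_pow (pb : PowerBasis K E) (c : Kˣ) {p : ℕ} {b : Kˣ}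
    (hgen : pb.gen ^ p = algebraMap K E b) :
    (pbScale pb c).gen ^ p = algebraMap K E ((b * (c ^ p)⁻¹ : Kˣ) : K) := by
  rw [pbScale_gen, _root_.smul_pow, hgen, Algebra.smul_def, ← map_mul]
  congr 1
  rw [Units.val_mul, mul_comm, ← Units.val_pow_eq_pow_val, inv_pow]

end Scale

section Unif

variable {F : Type} [Field F] [NumberField F]

theorem unif_exists_ordAt_eq_one (v : HeightOneSpectrum (𝓞 F)) : ∃ π : Fˣ, SUnits.ordAt v π = 1 := by
  obtain ⟨π, hπ⟩ := v.valuation_exists_uniformizer F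
  have hπ0 : π ≠ 0 := by
    rintro rfl
    rw [map_zero] at hπ
    exact WithZero.exp_ne_zero.symm hπ
  refine ⟨Units.mk0 π hπ0, ?_⟩
  have h := SUnits.valuation_eq_exp_neg_ordAt v (Units.mk0 π hπ0)
  rw [Units.val_mk0, hπ, WithZero.exp_inj] at h
  omega

theorem unif_ordAt_zpow (v : HeightOneSpectrum (𝓞 F)) (x : Fˣ) (k : ℤ) :
    SUnits.ordAt v (x ^ k) = k * SUnits.ordAt v x := by
  obtain ⟨n, rfl | rfl⟩ := k.eq_nat_or_neg
  · rw [zpow_natCast, SUnits.ordAt_pow]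
  · rw [zpow_neg, zpow_natCast, SUnits.ordAt_inv, SUnits.ordAt_pow]
    ring

theorem unif_exists_ordAt_eq (v : HeightOneSpectrum (𝓞 F)) (k : ℤ) : ∃ c : Fˣ, SUnits.ordAt v c = k := by
  obtain ⟨π, hπ⟩ := unif_exists_ordAt_eq_one v
  exact ⟨π ^ k, by rw [unif_ordAt_zpow, hπ, mul_one]⟩

end Unif

section Dvd

variable {F : Type} [Field F] [NumberField F] {p : ℕ}

/-- **(d')** At the places `v ∤ p` with `p ∣ ord_v b`, local units are local norms from
`F(b^{1/p})` (every prime `p`). -/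
theorem UQ_le_NlocQ_of_dvd (hp : p.Prime) {ζ : F} (hζ : IsPrimitiveRoot ζ p) (b : Fˣ)
    (q : Nat.Primes) (v : PrimesOver F q) (hpv : (p : 𝓞 F) ∉ v.1.asIdeal)
    (hbv : (p : ℤ) ∣ SUnits.ordAt v.1 b) : UQ F q v ≤ NlocQ F p b q v := by
  by_cases hb : ∃ c : F, c ^ p = b
  · obtain ⟨c, hc⟩ := hb
    rw [NlocQ, NlocQM_eq_top_of_finrank_eq_one q v (finrank_Mb_of_pow hζ hc)]
    exact le_top
  · obtain ⟨k, hk⟩ := hbv
    obtain ⟨c, hc⟩ := unif_exists_ordAt_eq v.1 k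
    have hb' : SUnits.ordAt v.1 (b * (c ^ p)⁻¹) = 0 := by
      rw [SUnits.ordAt_mul, SUnits.ordAt_inv, SUnits.ordAt_pow, hc, hk]
      ring
    exact UQ_le_NlocQM_all q v (pbScale (pbMb hp hζ hb) c) hp hζ
      (by rw [pbScale_dim, pbMb_dim hp hζ hb])
      (pbScale_gen_pow (pbMb hp hζ hb) c (pbMb_gen_pow hp hζ hb)) hpv
      ((SUnits.valuation_eq_one_iff_ordAt v.1 _).2 hb')

/-- **(d')**, indexed by the primes of `𝓞 F`. -/
theorem Uv_le_NlocV_of_dvd (hp : p.Prime) {ζ : F} (hζ : IsPrimitiveRoot ζ p) (b : Fˣ)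
    (v : HeightOneSpectrum (𝓞 F)) (hpv : (p : 𝓞 F) ∉ v.asIdeal)
    (hbv : (p : ℤ) ∣ SUnits.ordAt v b) : Uv F v ≤ NlocV F p b v :=
  UQ_le_NlocQ_of_dvd hp hζ b (qOf F v) (vOver F v) hpv hbv

end Dvd

end Fermat.Agent.Lib.CFT.Global.SecondIneq.Instance
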