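/-
P-CFT work package Global/SecondIneq (task 205), instance of the abstract idele model,
sub-file (I-Arch) (helper27): the archimedean norm group of a Kummer extension.

For an extension `M / F` of number fields, `NlocAOf F M` is the image of the archimedean component
`archRelNorm F M : (ℝ ⊗ M)ˣ → (ℝ ⊗ F)ˣ` of the idele norm.

* `pow_finrank_mem_NlocAOf`: `y ^ [M : F]` is an archimedean norm;
* `NlocAOf_eq_top_of_kummer`: if `M = F(β)`, `β ^ p = b`, `ζ_p ∈ F` and the image of `b` in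
  `(ℝ ⊗ F)ˣ` is a `p`-th power, then every element of `(ℝ ⊗ F)ˣ` is an archimedean norm.
-/
import Mathlib
import Fermat.Agent.Lib.CFT.Global.IdeleNorm
import Fermat.Agent.Lib.CFT.Global.KummerLocalSemi
import Fermat.Agent.Lib.CFT.Global.PlacesInfinite

set_option autoImplicit false

open scoped TensorProduct NumberField

noncomputable section

namespace Fermat.Agent.Lib.CFT.Global.SecondIneq.Instance

open NumberField Fermat.Agent.Lib.CFT.Global Fermat.Agent.Lib.CFT.Global.TensorExt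
  Fermat.Agent.Lib.CFT.Global.PlacesInfinite Fermat.Agent.Lib.CFT.Global.KummerLocal

attribute [local instance] TensorExt.tAlgebra

variable (F M : Type) [Field F] [NumberField F] [Field M] [NumberField M] [Algebra F M]

/-- The archimedean norm group of `M / F`: the image of `(ℝ ⊗ M)ˣ` in `(ℝ ⊗ F)ˣ` under the
archimedean component of the idele norm. -/
def NlocAOf : Subgroup (ArchAlg F)ˣ := (archRelNorm F M).range

theorem mem_NlocAOf_iff (u : (ArchAlg F)ˣ) :
    u ∈ NlocAOf F M ↔ ∃ y : (ArchAlg M)ˣ, archRelNorm F M y = u := Iff.rfl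

/-- `[M : F]`-th powers are archimedean norms. -/
theorem pow_finrank_mem_NlocAOf (y : (ArchAlg F)ˣ) : y ^ Module.finrank F M ∈ NlocAOf F M := by
  refine ⟨Units.map (algebraMap (ArchAlg F) (ArchAlg M) : ArchAlg F →* ArchAlg M) y, ?_⟩
  apply Units.ext
  rw [val_archRelNorm, Units.coe_map, Units.val_pow_eq_pow_val]
  exact norm_tmap ℝ (y : ArchAlg F)

/-- `p`-th powers are archimedean norms when `[M : F] = p` (given through a power basis). -/
theorem pow_mem_NlocAOf {p : ℕ} (pb : PowerBasis F M) (hdim : pb.dim = p) (y : (ArchAlg F)ˣ) :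
    y ^ p ∈ NlocAOf F M := by
  rw [← hdim, ← pb.finrank]
  exact pow_finrank_mem_NlocAOf F M y

variable {F M}

/-- The power basis `1, 1 ⊗ β, …` of `ℝ ⊗ M` over `ℝ ⊗ F` induced by a power basis of `M / F`. -/
def archPowerBasis (pb : PowerBasis F M) : PowerBasis (ArchAlg F) (ArchAlg M) where
  gen := ((1 : ℝ) ⊗ₜ[ℚ] pb.gen : ArchAlg M)
  dim := pb.dim
  basis := tBasis ℝ pb.basis
  basis_eq_pow i := by
    rw [tBasis_apply, pb.basis_eq_pow, Algebra.TensorProduct.tmul_pow, one_pow]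

@[simp] theorem archPowerBasis_gen (pb : PowerBasis F M) :
    (archPowerBasis pb).gen = ((1 : ℝ) ⊗ₜ[ℚ] pb.gen : ArchAlg M) := rfl

@[simp] theorem archPowerBasis_dim (pb : PowerBasis F M) : (archPowerBasis pb).dim = pb.dim := rfl

theorem archPowerBasis_gen_pow (pb : PowerBasis F M) {p : ℕ} {b : F}
    (hgen : pb.gen ^ p = algebraMap F M b) :
    (archPowerBasis pb).gen ^ p =
      algebraMap (ArchAlg F) (ArchAlg M) ((1 : ℝ) ⊗ₜ[ℚ] b : ArchAlg F) := by
  rw [archPowerBasis_gen, Algebra.TensorProduct.tmul_pow, one_pow, hgen, algebraMap_eq_tmap,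
    tmap_tmul]

section Split

attribute [local instance] IsArtinianRing.fieldOfSubtypeIsMaximal

variable (F M)

/-- **Archimedean norms of a Kummer extension.**  `M = F(β)` with `β ^ p = b`, `F ∋ ζ_p`.  If the
image of `b` in `(ℝ ⊗ F)ˣ` is a `p`-th power, then every element of `(ℝ ⊗ F)ˣ` is a norm from
`(ℝ ⊗ M)ˣ`. -/
theorem NlocAOf_eq_top_of_kummer {p : ℕ} (hp : 0 < p) (pb : PowerBasis F M) (hdim : pb.dim = p)
    {b : Fˣ} (hgen : pb.gen ^ p = algebraMap F M (b : F)) {ζ : F} (hζ : IsPrimitiveRoot ζ p)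
    (h : ∃ y : (ArchAlg F)ˣ, y ^ p = archUnit F b) : NlocAOf F M = ⊤ := by
  classical
  obtain ⟨y, hy⟩ := h
  have hart : IsArtinianRing (ArchAlg F) := isArtinianRing_archAlg F
  have hred : IsReduced (ArchAlg F) := isReduced_archAlg F
  rw [eq_top_iff]
  intro u _
  -- the archimedean algebra as a product of fields
  let e : ArchAlg F ≃+* ∀ m : MaximalSpectrum (ArchAlg F), ArchAlg F ⧸ m.asIdeal :=
    (IsArtinianRing.equivPi (ArchAlg F)).toRingEquiv
  have he : ∀ (r : ArchAlg F) (m : MaximalSpectrum (ArchAlg F)),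
      e r m = algebraMap (ArchAlg F) (ArchAlg F ⧸ m.asIdeal) r := fun r m => rfl
  have hcomp : ∀ m : MaximalSpectrum (ArchAlg F),
      ∃ z : ((ArchAlg F ⧸ m.asIdeal) ⊗[ArchAlg F] ArchAlg M)ˣ,
        Algebra.norm (ArchAlg F ⧸ m.asIdeal)
          (z : (ArchAlg F ⧸ m.asIdeal) ⊗[ArchAlg F] ArchAlg M) =
          algebraMap (ArchAlg F) (ArchAlg F ⧸ m.asIdeal) u := by
    intro m
    -- the embedding of `F` into the residue field at `m`
    let j : F →+* ArchAlg F ⧸ m.asIdeal :=
      (algebraMap (ArchAlg F) (ArchAlg F ⧸ m.asIdeal)).comp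
        (Algebra.TensorProduct.includeRight : F →ₐ[ℚ] ArchAlg F).toRingHom
    have hζm : IsPrimitiveRoot (j ζ) p := hζ.map_of_injective j.injective
    have hc : (algebraMap (ArchAlg F) (ArchAlg F ⧸ m.asIdeal) (y : ArchAlg F)) ^ p =
        algebraMap (ArchAlg F) (ArchAlg F ⧸ m.asIdeal) ((1 : ℝ) ⊗ₜ[ℚ] (b : F) : ArchAlg F) := by
      rw [← map_pow, ← Units.val_pow_eq_pow_val, hy, val_archUnit]
    have hc0 : algebraMap (ArchAlg F) (ArchAlg F ⧸ m.asIdeal) (y : ArchAlg F) ≠ 0 :=
      (y.isUnit.map (algebraMap (ArchAlg F) (ArchAlg F ⧸ m.asIdeal))).ne_zero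
    exact exists_norm_eq_baseChange_split (ArchAlg F ⧸ m.asIdeal) (archPowerBasis pb) hp
      ((archPowerBasis_dim pb).trans hdim) (archPowerBasis_gen_pow pb hgen) hζm hc0 hc
      (Units.map (algebraMap (ArchAlg F) (ArchAlg F ⧸ m.asIdeal) : ArchAlg F →* _) u)
  obtain ⟨z, hz⟩ := exists_norm_eq_of_forall_component e he (archPowerBasis pb).basis u hcomp
  exact ⟨z, Units.ext hz⟩

end Split

end Fermat.Agent.Lib.CFT.Global.SecondIneq.Instance
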