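/-
P-CFT work package Global/SecondIneq, instance of the abstract idele model, file (I-Ord)
(helper54): the normalised valuations `ord F v` on the local multiplicative groups `Fv F v`.
-/
import Mathlib
import Fermat.Agent.Lib.CFT.Global.SecondIneq.Instance.Defs
import Fermat.Agent.Lib.CFT.Global.Places.OrdAt

set_option autoImplicit false

open scoped TensorProduct NumberField

noncomputable section

namespace Fermat.Agent.Lib.CFT.Global.SecondIneq.Instance

open NumberField IsDedekindDomain Fermat.Agent.Lib.CFT.Global Fermat.Agent.Lib.CFT.Global.Places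
open Fermat.Agent.Lib.CFT.Local

variable (F : Type) [Field F] [NumberField F]

/-- The normalised valuation of the complete discrete valuation field `Kv F v`, on its
multiplicative group. -/
def ord (v : HeightOneSpectrum (𝓞 F)) : Fv F v →* Multiplicative ℤ :=
  UnitsFiltration.ordHom (Ov F v) (Kv F v)

theorem ord_apply (v : HeightOneSpectrum (𝓞 F)) (x : Fv F v) :
    ord F v x = Multiplicative.ofAdd (UnitsFiltration.ord (Ov F v) (Kv F v) x) := rfl

/-- `ord F v` is the composite of helper85's `ordAt` with the projection to the component. -/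
theorem ord_compAt (v : HeightOneSpectrum (𝓞 F)) (u : (LocAlg F (qOf F v))ˣ) :
    ord F v (compAt F (qOf F v) (vOver F v) u) = Places.ordAt (vOver F v) u := rfl

/-- The kernel of the valuation is the group of local units. -/
theorem ord_ker (v : HeightOneSpectrum (𝓞 F)) : (ord F v).ker = Uv F v :=
  UnitsFiltration.ker_ordHom

theorem ord_eq_one_iff (v : HeightOneSpectrum (𝓞 F)) (x : Fv F v) :
    ord F v x = 1 ↔ x ∈ Uv F v := by
  rw [← ord_ker, MonoidHom.mem_ker]

theorem ord_surjective (v : HeightOneSpectrum (𝓞 F)) : Function.Surjective (ord F v) :=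
  UnitsFiltration.ordHom_surjective

/-- On the global field the valuation is the `v`-adic valuation. -/
theorem ord_emb (v : HeightOneSpectrum (𝓞 F)) (x : Fˣ) :
    ord F v (emb F v x) = Multiplicative.ofAdd (SUnits.ordAt v x) :=
  Places.ordAt_locUnit (vOver F v) x

theorem toAdd_ord_emb (v : HeightOneSpectrum (𝓞 F)) (x : Fˣ) :
    Multiplicative.toAdd (ord F v (emb F v x)) = SUnits.ordAt v x := by
  rw [ord_emb, toAdd_ofAdd]

end Fermat.Agent.Lib.CFT.Global.SecondIneq.Instance
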