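/-
P-CFT work package Global/SecondIneq, instance of the abstract idele model, sub-file (I-Red):
the reduction maps `red F v : Uv F v →* (𝓞 F ⧸ v)ˣ`.
-/
import Mathlib
import Fermat.Agent.Lib.CFT.Global.SecondIneq.Instance.Defs
import Fermat.Agent.Lib.CFT.Global.Places.LocAlgUnits
import Fermat.Agent.Lib.CFT.Global.KummerLocal

set_option autoImplicit false
set_option maxHeartbeats 400000

open scoped TensorProduct NumberField

noncomputable section

namespace Fermat.Agent.Lib.CFT.Global.SecondIneq.Instance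

open NumberField IsDedekindDomain Fermat.Agent.Lib.CFT.Global Fermat.Agent.Lib.CFT.Global.Places
open IsLocalRing

variable (F : Type) [Field F] [NumberField F]

/-- The units of the valuation ring, identified with the local units. -/
def UvEquiv (v : HeightOneSpectrum (𝓞 F)) : (Ov F v)ˣ ≃* Uv F v :=
  MonoidHom.ofInjective
    (f := Units.map ((algebraMap (Ov F v) (Kv F v) : Ov F v →+* Kv F v) : Ov F v →* Kv F v))
    (Units.map_injective (FaithfulSMul.algebraMap_injective _ _))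

theorem coe_UvEquiv (v : HeightOneSpectrum (𝓞 F)) (a : (Ov F v)ˣ) :
    (((UvEquiv F v a : Uv F v) : Fv F v) : Kv F v) = algebraMap (Ov F v) (Kv F v) a := rfl

theorem algebraMap_UvEquiv_symm (v : HeightOneSpectrum (𝓞 F)) (u : Uv F v) :
    algebraMap (Ov F v) (Kv F v) ((UvEquiv F v).symm u : (Ov F v)ˣ) = ((u : Fv F v) : Kv F v) := by
  rw [← coe_UvEquiv, MulEquiv.apply_symm_apply]

/-- The residue field of `Ov F v` is `𝓞 F ⧸ v`. -/
def redResEquiv (v : HeightOneSpectrum (𝓞 F)) : (𝓞 F ⧸ v.asIdeal) ≃+* ResidueField (Ov F v) :=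
  LocalInt.residueFieldEquiv (vOver F v)

theorem redResEquiv_mk (v : HeightOneSpectrum (𝓞 F)) (c : 𝓞 F) :
    redResEquiv F v (Ideal.Quotient.mk v.asIdeal c) =
      residue (Ov F v) (algebraMap (𝓞 F) (Ov F v) c) :=
  LocalInt.residueFieldEquiv_mk (vOver F v) c

/-- Reduction of units of `Ov F v` modulo the maximal ideal, with values in `(𝓞 F ⧸ v)ˣ`. -/
def redInt (v : HeightOneSpectrum (𝓞 F)) : (Ov F v)ˣ →* (𝓞 F ⧸ v.asIdeal)ˣ :=
  (Units.mapEquiv (redResEquiv F v).symm.toMulEquiv).toMonoidHom.comp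
    (Units.map ((residue (Ov F v) : Ov F v →+* ResidueField (Ov F v)) :
      Ov F v →* ResidueField (Ov F v)))

theorem coe_redInt (v : HeightOneSpectrum (𝓞 F)) (a : (Ov F v)ˣ) :
    ((redInt F v a : (𝓞 F ⧸ v.asIdeal)ˣ) : 𝓞 F ⧸ v.asIdeal) =
      (redResEquiv F v).symm (residue (Ov F v) (a : Ov F v)) := rfl

/-- The reduction map on local units. -/
def red (v : HeightOneSpectrum (𝓞 F)) : Uv F v →* (𝓞 F ⧸ v.asIdeal)ˣ :=
  (redInt F v).comp (UvEquiv F v).symm.toMonoidHom

theorem red_apply (v : HeightOneSpectrum (𝓞 F)) (u : Uv F v) :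
    red F v u = redInt F v ((UvEquiv F v).symm u) := rfl

theorem red_UvEquiv (v : HeightOneSpectrum (𝓞 F)) (a : (Ov F v)ˣ) :
    red F v (UvEquiv F v a) = redInt F v a := by
  rw [red_apply, MulEquiv.symm_apply_apply]

theorem redInt_surjective (v : HeightOneSpectrum (𝓞 F)) : Function.Surjective (redInt F v) := by
  intro z
  obtain ⟨a, ha⟩ := IsLocalRing.surjective_units_map_of_local_ringHom (residue (Ov F v))
    residue_surjective inferInstance
    (Units.mapEquiv (redResEquiv F v).toMulEquiv z)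
  refine ⟨a, ?_⟩
  apply Units.ext
  rw [coe_redInt]
  have h : residue (Ov F v) (a : Ov F v) = redResEquiv F v (z : 𝓞 F ⧸ v.asIdeal) :=
    congrArg (fun t : (ResidueField (Ov F v))ˣ => (t : ResidueField (Ov F v))) ha
  rw [h]
  exact (redResEquiv F v).symm_apply_apply _

theorem red_surjective (v : HeightOneSpectrum (𝓞 F)) : Function.Surjective (red F v) := by
  intro z
  obtain ⟨a, ha⟩ := redInt_surjective F v z
  exact ⟨UvEquiv F v a, by rw [red_UvEquiv, ha]⟩

theorem redInt_eq_one_iff (v : HeightOneSpectrum (𝓞 F)) (a : (Ov F v)ˣ) :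
    redInt F v a = 1 ↔ (a : Ov F v) - 1 ∈ maximalIdeal (Ov F v) := by
  rw [Units.ext_iff, coe_redInt, Units.val_one,
    ← map_one (redResEquiv F v).symm,
    (redResEquiv F v).symm.injective.eq_iff, ← sub_eq_zero,
    ← map_one (residue (Ov F v)), ← map_sub, residue_eq_zero_iff]

/-- A natural number prime to `v` is a unit of `Ov F v`. -/
theorem red_isUnit_natCast_Ov (v : HeightOneSpectrum (𝓞 F)) (p : ℕ)
    (hp : ((p : ℕ) : 𝓞 F) ∉ v.asIdeal) : IsUnit ((p : ℕ) : Ov F v) := by
  by_contra h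
  have h1 : ((p : ℕ) : Ov F v) ∈ maximalIdeal (Ov F v) := (mem_maximalIdeal _).mpr h
  have h2 : algebraMap (𝓞 F) (Ov F v) ((p : ℕ) : 𝓞 F) ∈ maximalIdeal (Ov F v) ^ 1 := by
    rw [pow_one, map_natCast]
    exact h1
  rw [LocalInt.algebraMap_mem_maximalIdeal_pow_iff (vOver F v) 1, pow_one] at h2
  exact hp h2

/-- Hensel: the kernel of the reduction consists of `p`-th powers, for `p` prime to `v`. -/
theorem red_ker (v : HeightOneSpectrum (𝓞 F)) (p : ℕ) (hp : ((p : ℕ) : 𝓞 F) ∉ v.asIdeal)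
    (u : Uv F v) : red F v u = 1 → ∃ u' : Uv F v, u' ^ p = u := by
  intro h
  obtain ⟨a, rfl⟩ := (UvEquiv F v).surjective u
  rw [red_UvEquiv, redInt_eq_one_iff] at h
  have hH : HenselianLocalRing (Ov F v) :=
    { is_henselian := fun f hf a₀ h₁ h₂ =>
        HenselianRing.is_henselian f hf a₀ h₁
          (h₂.map (Ideal.Quotient.mk (maximalIdeal (Ov F v)))) }
  obtain ⟨x, hx, -⟩ := KummerLocal.exists_pow_eq_of_sub_one_mem (red_isUnit_natCast_Ov F v p hp) h
  have hxu : IsUnit x := by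
    rcases Nat.eq_zero_or_pos p with hp0 | hp0
    · exfalso
      apply hp
      rw [hp0, Nat.cast_zero]
      exact zero_mem _
    · exact (isUnit_pow_iff hp0.ne').mp (hx ▸ a.isUnit)
  refine ⟨UvEquiv F v hxu.unit, ?_⟩
  rw [← map_pow]
  congr 1
  apply Units.ext
  rw [Units.val_pow_eq_pow_val, IsUnit.unit_spec, hx]

/-- The reduction of a global integer which is a local unit. -/
theorem red_emb (v : HeightOneSpectrum (𝓞 F)) (c : 𝓞 F) (x : Fˣ) (u : Uv F v) :
    (x : F) = c → (u : Fv F v) = emb F v x →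
      ((red F v u : (𝓞 F ⧸ v.asIdeal)ˣ) : 𝓞 F ⧸ v.asIdeal) = Ideal.Quotient.mk v.asIdeal c := by
  intro hxc hux
  have h1 : algebraMap (Ov F v) (Kv F v) ((UvEquiv F v).symm u : (Ov F v)ˣ) =
      algebraMap (Ov F v) (Kv F v) (algebraMap (𝓞 F) (Ov F v) c) := by
    rw [algebraMap_UvEquiv_symm, hux, val_emb, hxc]
    exact ofField_algebraMap (vOver F v) c
  have h2 := FaithfulSMul.algebraMap_injective (Ov F v) (Kv F v) h1
  rw [red_apply, coe_redInt, h2, RingEquiv.symm_apply_eq]
  exact (redResEquiv_mk F v c).symm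

end Fermat.Agent.Lib.CFT.Global.SecondIneq.Instance
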